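import Mathlib
import Fermat.Agent.Jac.Core
import Fermat.Agent.Jac.JSmooth85Alg

/-!
# JAC brick BC, part 2: base change of two-chart modules along a cube of rings  (helper75)

Setting (the same as `JSmooth85Alg.QC2Lift`): two two-chart ring systems `(A, R0, R1, R01)` and
`(A', R0', R1', R01')` and algebra structures `R0 → R0'`, `R1 → R1'`, `R01 → R01'` such that the
two squares commute (`hc0`, `hc1`).

* `sideMap`, `sideMap_tmul`, `sideMap_isBaseChange` : one face of the cube.
* `bcCube A' hc0 hc1 L` : the base change of `L : QC2 A R0 R1 R01` to `QC2 A' R0' R1' R01'`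
  (`N0 := R0' ⊗[R0] L.N0` etc.).
* `liftData_bcCube` : `JSmooth85Alg.LiftData L (bcCube A' hc0 hc1 L)`.
-/

set_option autoImplicit false
set_option linter.style.haveILetI false
set_option linter.unusedSectionVars false

open TensorProduct

namespace Fermat.Agent.Jac.BaseChange75

universe u

section Side

variable {R R' S S' : Type u} [CommRing R] [CommRing R'] [CommRing S] [CommRing S']
  [Algebra R S] [Algebra R' S'] [Algebra R R'] [Algebra S S']
  (hc : (algebraMap R' S').comp (algebraMap R R') = (algebraMap S S').comp (algebraMap R S))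
  {N P : Type u} [AddCommGroup N] [Module R N] [AddCommGroup P] [Module S P] [Module R P]
  [IsScalarTower R S P] (r : N →ₗ[R] P)

/-- The diagonal algebra structure `R → S'` of a commutative square (local use only). -/
@[instance_reducible]
def diagAlgebra (R S S' : Type u) [CommRing R] [CommRing S] [CommRing S'] [Algebra R S]
    [Algebra S S'] : Algebra R S' :=
  ((algebraMap S S').comp (algebraMap R S)).toAlgebra

include hc in
theorem diag_tower : letI := diagAlgebra R S S'; IsScalarTower R R' S' :=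
  letI := diagAlgebra R S S'
  IsScalarTower.of_algebraMap_eq (fun x => (RingHom.congr_fun hc x).symm)

theorem diag_tower' : letI := diagAlgebra R S S'; IsScalarTower R S S' :=
  letI := diagAlgebra R S S'
  IsScalarTower.of_algebraMap_eq (fun _ => rfl)

/-- One face of the cube: the `R'`-linear map `R' ⊗[R] N → S' ⊗[S] P` induced by
`r : N →ₗ[R] P`; `R'` acts on the target through the left factor `S'`. -/
noncomputable def sideMap : R' ⊗[R] N →ₗ[R'] S' ⊗[S] P :=
  letI := diagAlgebra R S S'
  haveI := diag_tower hc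
  haveI := diag_tower' (R := R) (S := S) (S' := S')
  LinearMap.liftBaseChange R' (((TensorProduct.mk S S' P 1).restrictScalars R) ∘ₗ r)

@[simp]
theorem sideMap_tmul (b : R') (n : N) :
    sideMap hc r (b ⊗ₜ[R] n) = algebraMap R' S' b ⊗ₜ[S] r n := by
  letI := diagAlgebra R S S'
  haveI := diag_tower hc
  haveI := diag_tower' (R := R) (S := S) (S' := S')
  show LinearMap.liftBaseChange R' (((TensorProduct.mk S S' P 1).restrictScalars R) ∘ₗ r)
    (b ⊗ₜ[R] n) = _
  rw [LinearMap.liftBaseChange_tmul]
  simp [TensorProduct.smul_tmul', Algebra.smul_def]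

include hc in
/-- The face map `sideMap` is a base change along `R' → S'` if `r` is one along `R → S`. -/
theorem sideMap_isBaseChange (hr : IsBaseChange S r) : IsBaseChange S' (sideMap hc r) := by
  letI := diagAlgebra R S S'
  haveI := diag_tower hc
  haveI := diag_tower' (R := R) (S := S) (S' := S')
  have h1 : IsBaseChange S' (((TensorProduct.mk S S' P 1).restrictScalars R) ∘ₗ r) :=
    IsBaseChange.comp hr (TensorProduct.isBaseChange S P S')
  have h2 : IsBaseChange R' (TensorProduct.mk R R' N 1) := TensorProduct.isBaseChange R N R'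
  refine IsBaseChange.of_comp h2 ?_
  convert h1 using 1
  ext n
  simp

end Side

section Cube

open JSmooth85Alg

variable {A R0 R1 R01 A' R0' R1' R01' : Type u}
  [CommRing A] [CommRing R0] [CommRing R1] [CommRing R01]
  [Algebra A R0] [Algebra A R1] [Algebra A R01] [Algebra R0 R01] [Algebra R1 R01]
  [IsScalarTower A R0 R01] [IsScalarTower A R1 R01]
  [CommRing A'] [CommRing R0'] [CommRing R1'] [CommRing R01']
  [Algebra A' R0'] [Algebra A' R1'] [Algebra A' R01'] [Algebra R0' R01'] [Algebra R1' R01']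
  [IsScalarTower A' R0' R01'] [IsScalarTower A' R1' R01']
  [Algebra R0 R0'] [Algebra R1 R1'] [Algebra R01 R01']
  (hc0 : (algebraMap R0' R01').comp (algebraMap R0 R0') =
    (algebraMap R01 R01').comp (algebraMap R0 R01))
  (hc1 : (algebraMap R1' R01').comp (algebraMap R1 R1') =
    (algebraMap R01 R01').comp (algebraMap R1 R01))

variable (A') in
/-- The base change of a two-chart module along a cube of rings: `N0 := R0' ⊗[R0] L.N0`,
`N1 := R1' ⊗[R1] L.N1`, `N01 := R01' ⊗[R01] L.N01`; all scalar actions on these tensor products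
are the canonical ones through the left factor. -/
noncomputable def bcCube (L : QC2 A R0 R1 R01) : QC2 A' R0' R1' R01' where
  N0 := R0' ⊗[R0] L.N0
  N1 := R1' ⊗[R1] L.N1
  N01 := R01' ⊗[R01] L.N01
  r0 := sideMap hc0 L.r0
  r1 := sideMap hc1 L.r1
  bc0 := sideMap_isBaseChange hc0 L.r0 L.bc0
  bc1 := sideMap_isBaseChange hc1 L.r1 L.bc1

@[simp]
theorem bcCube_r0_tmul (L : QC2 A R0 R1 R01) (b : R0') (n : L.N0) :
    (bcCube A' hc0 hc1 L).r0 (b ⊗ₜ[R0] n) = algebraMap R0' R01' b ⊗ₜ[R01] L.r0 n :=
  sideMap_tmul hc0 L.r0 b n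

@[simp]
theorem bcCube_r1_tmul (L : QC2 A R0 R1 R01) (b : R1') (n : L.N1) :
    (bcCube A' hc0 hc1 L).r1 (b ⊗ₜ[R1] n) = algebraMap R1' R01' b ⊗ₜ[R01] L.r1 n :=
  sideMap_tmul hc1 L.r1 b n

/-- The base change `bcCube` is a base change in the sense of `JSmooth85Alg.LiftData`. -/
noncomputable def liftData_bcCube (L : QC2 A R0 R1 R01) : LiftData L (bcCube A' hc0 hc1 L) where
  e0 := LinearEquiv.refl R0' _
  e1 := LinearEquiv.refl R1' _
  e01 := LinearEquiv.refl R01' _
  comm0 x := by
    show (1 : R01') ⊗ₜ[R01] L.r0 x = (bcCube A' hc0 hc1 L).r0 ((1 : R0') ⊗ₜ[R0] x)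
    rw [bcCube_r0_tmul, map_one]
  comm1 x := by
    show (1 : R01') ⊗ₜ[R01] L.r1 x = (bcCube A' hc0 hc1 L).r1 ((1 : R1') ⊗ₜ[R1] x)
    rw [bcCube_r1_tmul, map_one]

/-! ### Uniqueness and functoriality of base changes -/

omit [IsScalarTower A R0 R01] [IsScalarTower A R1 R01] [IsScalarTower A' R0' R01']
  [IsScalarTower A' R1' R01'] in
/-- Two linear maps out of `R' ⊗[R] N` which agree on the elements `1 ⊗ n` are equal. -/
theorem ext_one_tmul {R R' N Q : Type u} [CommRing R] [CommRing R'] [Algebra R R']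
    [AddCommGroup N] [Module R N] [AddCommGroup Q] [Module R' Q]
    (g₁ g₂ : R' ⊗[R] N →ₗ[R'] Q) (h : ∀ n, g₁ (1 ⊗ₜ n) = g₂ (1 ⊗ₜ n)) : g₁ = g₂ :=
  (TensorProduct.isBaseChange R N R').algHom_ext g₁ g₂ h

/-- Two base changes of the same two-chart module are isomorphic. -/
noncomputable def LiftData.iso {L : QC2 A R0 R1 R01} {L' L'' : QC2 A' R0' R1' R01'}
    (h : LiftData L L') (h' : LiftData L L'') : QC2.Iso L' L'' where
  e0 := h.e0.symm ≪≫ₗ h'.e0
  e1 := h.e1.symm ≪≫ₗ h'.e1
  e01 := h.e01.symm ≪≫ₗ h'.e01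
  comm0 x := by
    obtain ⟨y, rfl⟩ := h.e0.surjective x
    have key : ((h.e01.symm ≪≫ₗ h'.e01).toLinearMap.restrictScalars R0') ∘ₗ L'.r0 ∘ₗ
        h.e0.toLinearMap = L''.r0 ∘ₗ h'.e0.toLinearMap := by
      apply ext_one_tmul
      intro n
      simp only [LinearMap.coe_comp, LinearMap.coe_restrictScalars, LinearEquiv.coe_coe,
        Function.comp_apply, LinearEquiv.trans_apply]
      rw [← h.comm0, LinearEquiv.symm_apply_apply, h'.comm0]
    have := LinearMap.congr_fun key y
    simpa using this
  comm1 x := by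
    obtain ⟨y, rfl⟩ := h.e1.surjective x
    have key : ((h.e01.symm ≪≫ₗ h'.e01).toLinearMap.restrictScalars R1') ∘ₗ L'.r1 ∘ₗ
        h.e1.toLinearMap = L''.r1 ∘ₗ h'.e1.toLinearMap := by
      apply ext_one_tmul
      intro n
      simp only [LinearMap.coe_comp, LinearMap.coe_restrictScalars, LinearEquiv.coe_coe,
        Function.comp_apply, LinearEquiv.trans_apply]
      rw [← h.comm1, LinearEquiv.symm_apply_apply, h'.comm1]
    have := LinearMap.congr_fun key y
    simpa using this

/-- A two-chart module isomorphic to a base change is a base change. -/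
noncomputable def LiftData.ofIso {L : QC2 A R0 R1 R01} {L' L'' : QC2 A' R0' R1' R01'}
    (h : LiftData L L') (i : QC2.Iso L' L'') : LiftData L L'' where
  e0 := h.e0 ≪≫ₗ i.e0
  e1 := h.e1 ≪≫ₗ i.e1
  e01 := h.e01 ≪≫ₗ i.e01
  comm0 x := by
    simp only [LinearEquiv.trans_apply]
    rw [h.comm0, i.comm0]
  comm1 x := by
    simp only [LinearEquiv.trans_apply]
    rw [h.comm1, i.comm1]

/-- Base change is compatible with isomorphisms of the source. -/
noncomputable def LiftData.congrIso {L M : QC2 A R0 R1 R01} {L' : QC2 A' R0' R1' R01'}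
    (h : LiftData L L') (i : QC2.Iso L M) : LiftData M L' where
  e0 := (TensorProduct.AlgebraTensorModule.congr (LinearEquiv.refl R0' R0') i.e0).symm ≪≫ₗ h.e0
  e1 := (TensorProduct.AlgebraTensorModule.congr (LinearEquiv.refl R1' R1') i.e1).symm ≪≫ₗ h.e1
  e01 :=
    (TensorProduct.AlgebraTensorModule.congr (LinearEquiv.refl R01' R01') i.e01).symm ≪≫ₗ h.e01
  comm0 x := by
    obtain ⟨y, rfl⟩ := i.e0.surjective x
    rw [← i.comm0]
    simp only [LinearEquiv.trans_apply, TensorProduct.AlgebraTensorModule.congr_symm_tmul,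
      LinearEquiv.refl_symm, LinearEquiv.refl_apply, LinearEquiv.symm_apply_apply]
    exact h.comm0 y
  comm1 x := by
    obtain ⟨y, rfl⟩ := i.e1.surjective x
    rw [← i.comm1]
    simp only [LinearEquiv.trans_apply, TensorProduct.AlgebraTensorModule.congr_symm_tmul,
      LinearEquiv.refl_symm, LinearEquiv.refl_apply, LinearEquiv.symm_apply_apply]
    exact h.comm1 y

/-- Line bundles are preserved by base change. -/
theorem LiftData.isLine {L : QC2 A R0 R1 R01} {L' : QC2 A' R0' R1' R01'}
    (h : LiftData L L') (hL : L.IsLine) : L'.IsLine := by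
  haveI := hL.inv0
  haveI := hL.inv1
  exact ⟨Module.Invertible.congr h.e0, Module.Invertible.congr h.e1⟩

/-- Vector bundles are preserved by base change. -/
theorem LiftData.isVB {L : QC2 A R0 R1 R01} {L' : QC2 A' R0' R1' R01'}
    (h : LiftData L L') (hL : L.IsVB) : L'.IsVB := by
  haveI := hL.fin0
  haveI := hL.proj0
  haveI := hL.fin1
  haveI := hL.proj1
  exact ⟨Module.Finite.equiv h.e0, Module.Projective.of_equiv h.e0,
    Module.Finite.equiv h.e1, Module.Projective.of_equiv h.e1⟩

end Cube

section Refl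

open JSmooth85Alg

variable {A R0 R1 R01 : Type u} [CommRing A] [CommRing R0] [CommRing R1] [CommRing R01]
  [Algebra A R0] [Algebra A R1] [Algebra A R01] [Algebra R0 R01] [Algebra R1 R01]
  [IsScalarTower A R0 R01] [IsScalarTower A R1 R01]

/-- Every two-chart module is its own base change along the identity cube. -/
noncomputable def LiftData.refl (L : QC2 A R0 R1 R01) : LiftData L L where
  e0 := TensorProduct.lid R0 L.N0
  e1 := TensorProduct.lid R1 L.N1
  e01 := TensorProduct.lid R01 L.N01
  comm0 x := by simp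
  comm1 x := by simp

end Refl

section Trans

open JSmooth85Alg

variable {A R0 R1 R01 A' R0' R1' R01' A'' R0'' R1'' R01'' : Type u}
  [CommRing A] [CommRing R0] [CommRing R1] [CommRing R01]
  [Algebra A R0] [Algebra A R1] [Algebra A R01] [Algebra R0 R01] [Algebra R1 R01]
  [IsScalarTower A R0 R01] [IsScalarTower A R1 R01]
  [CommRing A'] [CommRing R0'] [CommRing R1'] [CommRing R01']
  [Algebra A' R0'] [Algebra A' R1'] [Algebra A' R01'] [Algebra R0' R01'] [Algebra R1' R01']
  [IsScalarTower A' R0' R01'] [IsScalarTower A' R1' R01']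
  [CommRing A''] [CommRing R0''] [CommRing R1''] [CommRing R01'']
  [Algebra A'' R0''] [Algebra A'' R1''] [Algebra A'' R01''] [Algebra R0'' R01'']
  [Algebra R1'' R01''] [IsScalarTower A'' R0'' R01''] [IsScalarTower A'' R1'' R01'']
  [Algebra R0 R0'] [Algebra R1 R1'] [Algebra R01 R01']
  [Algebra R0' R0''] [Algebra R1' R1''] [Algebra R01' R01'']
  [Algebra R0 R0''] [Algebra R1 R1''] [Algebra R01 R01'']
  [IsScalarTower R0 R0' R0''] [IsScalarTower R1 R1' R1''] [IsScalarTower R01 R01' R01'']

/-- Base changes compose. -/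
noncomputable def LiftData.trans {L : QC2 A R0 R1 R01} {L' : QC2 A' R0' R1' R01'}
    {L'' : QC2 A'' R0'' R1'' R01''} (h : LiftData L L') (h' : LiftData L' L'') :
    LiftData L L'' where
  e0 := (TensorProduct.AlgebraTensorModule.cancelBaseChange R0 R0' R0'' R0'' L.N0).symm ≪≫ₗ
    (TensorProduct.AlgebraTensorModule.congr (LinearEquiv.refl R0'' R0'') h.e0) ≪≫ₗ h'.e0
  e1 := (TensorProduct.AlgebraTensorModule.cancelBaseChange R1 R1' R1'' R1'' L.N1).symm ≪≫ₗ
    (TensorProduct.AlgebraTensorModule.congr (LinearEquiv.refl R1'' R1'') h.e1) ≪≫ₗ h'.e1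
  e01 := (TensorProduct.AlgebraTensorModule.cancelBaseChange R01 R01' R01'' R01'' L.N01).symm ≪≫ₗ
    (TensorProduct.AlgebraTensorModule.congr (LinearEquiv.refl R01'' R01'') h.e01) ≪≫ₗ h'.e01
  comm0 x := by
    simp only [LinearEquiv.trans_apply, TensorProduct.AlgebraTensorModule.cancelBaseChange_symm_tmul,
      TensorProduct.AlgebraTensorModule.congr_tmul, LinearEquiv.refl_apply]
    rw [h.comm0, h'.comm0]
  comm1 x := by
    simp only [LinearEquiv.trans_apply, TensorProduct.AlgebraTensorModule.cancelBaseChange_symm_tmul,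
      TensorProduct.AlgebraTensorModule.congr_tmul, LinearEquiv.refl_apply]
    rw [h.comm1, h'.comm1]

end Trans

end Fermat.Agent.Jac.BaseChange75
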