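import Mathlib
import Fermat.Agent.Jac.Core

/-!
# JAC brick BC, part 1: tensor rings  (helper75)

For `k`-algebras `A`, `B`, `C` with `[Algebra B C]` the ring `A ⊗[k] C` is an algebra over
`A ⊗[k] B`; for `[Algebra A A']` the ring `A' ⊗[k] B` is an algebra over `A ⊗[k] B`.
These algebra structures are *scoped* instances of the namespace
`Fermat.Agent.Jac.BaseChange75`.

Main definitions: `TwoChart.baseChange c0 A`, the two-chart ring over `A` obtained from a two-chart
ring `c0` over `k`.
-/

set_option autoImplicit false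

open TensorProduct

namespace Fermat.Agent.Jac.BaseChange75

universe u

section Right

variable (k A B C : Type u) [CommRing k] [CommRing A] [CommRing B] [CommRing C]
  [Algebra k A] [Algebra k B] [Algebra k C] [Algebra B C] [IsScalarTower k B C]

/-- The `A`-algebra map `A ⊗[k] B → A ⊗[k] C` induced by `B → C`. -/
def rightMap : A ⊗[k] B →ₐ[A] A ⊗[k] C :=
  Algebra.TensorProduct.map (AlgHom.id A A) (IsScalarTower.toAlgHom k B C)

@[simp]
theorem rightMap_tmul (a : A) (b : B) :
    rightMap k A B C (a ⊗ₜ[k] b) = a ⊗ₜ[k] algebraMap B C b := by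
  simp [rightMap]

/-- `A ⊗[k] C` as an algebra over `A ⊗[k] B` (scoped instance). -/
@[instance_reducible]
def algRight : Algebra (A ⊗[k] B) (A ⊗[k] C) := (rightMap k A B C).toRingHom.toAlgebra

scoped[Fermat.Agent.Jac.BaseChange75] attribute [instance 900] algRight

theorem algebraMap_right_eq :
    algebraMap (A ⊗[k] B) (A ⊗[k] C) = (rightMap k A B C).toRingHom := rfl

@[simp]
theorem algebraMap_right_tmul (a : A) (b : B) :
    algebraMap (A ⊗[k] B) (A ⊗[k] C) (a ⊗ₜ[k] b) = a ⊗ₜ[k] algebraMap B C b :=
  rightMap_tmul k A B C a b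

/-- `A → A ⊗[k] B → A ⊗[k] C` is a scalar tower (scoped instance). -/
theorem towerRight : IsScalarTower A (A ⊗[k] B) (A ⊗[k] C) :=
  IsScalarTower.of_algebraMap_eq' (by
    ext a
    simp [Algebra.TensorProduct.algebraMap_apply])

scoped[Fermat.Agent.Jac.BaseChange75] attribute [instance] towerRight

end Right

section Left

variable (k A A' B : Type u) [CommRing k] [CommRing A] [CommRing A'] [CommRing B]
  [Algebra k A] [Algebra k A'] [Algebra k B] [Algebra A A'] [IsScalarTower k A A']

/-- The `A`-algebra map `A ⊗[k] B → A' ⊗[k] B` induced by `A → A'`. -/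
def leftMap : A ⊗[k] B →ₐ[A] A' ⊗[k] B :=
  Algebra.TensorProduct.map (IsScalarTower.toAlgHom A A A') (AlgHom.id k B)

@[simp]
theorem leftMap_tmul (a : A) (b : B) :
    leftMap k A A' B (a ⊗ₜ[k] b) = algebraMap A A' a ⊗ₜ[k] b := by
  simp [leftMap]

/-- `A' ⊗[k] B` as an algebra over `A ⊗[k] B` (scoped instance). -/
@[instance_reducible]
def algLeft : Algebra (A ⊗[k] B) (A' ⊗[k] B) := (leftMap k A A' B).toRingHom.toAlgebra

scoped[Fermat.Agent.Jac.BaseChange75] attribute [instance 900] algLeft

theorem algebraMap_left_eq :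
    algebraMap (A ⊗[k] B) (A' ⊗[k] B) = (leftMap k A A' B).toRingHom := rfl

@[simp]
theorem algebraMap_left_tmul (a : A) (b : B) :
    algebraMap (A ⊗[k] B) (A' ⊗[k] B) (a ⊗ₜ[k] b) = algebraMap A A' a ⊗ₜ[k] b :=
  leftMap_tmul k A A' B a b

/-- `A → A ⊗[k] B → A' ⊗[k] B` is a scalar tower (scoped instance). -/
theorem towerLeft : IsScalarTower A (A ⊗[k] B) (A' ⊗[k] B) :=
  IsScalarTower.of_algebraMap_eq' (by
    ext a
    simp [Algebra.TensorProduct.algebraMap_apply])

scoped[Fermat.Agent.Jac.BaseChange75] attribute [instance] towerLeft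

/-- `A → A' → A' ⊗[k] B` is a scalar tower. -/
theorem towerLeft' : IsScalarTower A A' (A' ⊗[k] B) :=
  IsScalarTower.of_algebraMap_eq' (by
    ext a
    simp [Algebra.TensorProduct.algebraMap_apply])

/-- The square `A → A'`, `A ⊗[k] B → A' ⊗[k] B` is a pushout. -/
theorem isPushout_left : Algebra.IsPushout A A' (A ⊗[k] B) (A' ⊗[k] B) :=
  Algebra.IsPushout.tensorProduct_tensorProduct k B A A' (by
    ext b
    simp)

scoped[Fermat.Agent.Jac.BaseChange75] attribute [instance] isPushout_left

end Left

section Square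

open scoped Fermat.Agent.Jac.BaseChange75

variable (k A A' B C : Type u) [CommRing k] [CommRing A] [CommRing A'] [CommRing B] [CommRing C]
  [Algebra k A] [Algebra k A'] [Algebra k B] [Algebra k C] [Algebra A A'] [IsScalarTower k A A']
  [Algebra B C] [IsScalarTower k B C]

/-- The square of tensor rings commutes. -/
theorem square_comm :
    (algebraMap (A' ⊗[k] B) (A' ⊗[k] C)).comp (algebraMap (A ⊗[k] B) (A' ⊗[k] B)) =
      (algebraMap (A ⊗[k] C) (A' ⊗[k] C)).comp (algebraMap (A ⊗[k] B) (A ⊗[k] C)) := by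
  refine RingHom.ext fun x => ?_
  induction x using TensorProduct.induction_on with
  | zero => simp
  | add x y hx hy => rw [map_add, map_add, hx, hy]
  | tmul a b => simp

end Square

section TwoChart

open scoped Fermat.Agent.Jac.BaseChange75

variable {k B0 B1 B01 : Type u} [CommRing k] [CommRing B0] [CommRing B1] [CommRing B01]
  [Algebra k B0] [Algebra k B1] [Algebra k B01] [Algebra B0 B01] [Algebra B1 B01]
  [IsScalarTower k B0 B01] [IsScalarTower k B1 B01]

theorem map_powers_includeRight (A : Type u) [CommRing A] [Algebra k A]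
    {B : Type u} [CommRing B] [Algebra k B] (t : B) :
    (Submonoid.powers t).map (Algebra.TensorProduct.includeRight (R := k) (A := A) (B := B)) =
      Submonoid.powers ((1 : A) ⊗ₜ[k] t) := by
  rw [Submonoid.map_powers]
  rfl

/-- `A ⊗[k] B[1/t]` is the localization of `A ⊗[k] B` away from `1 ⊗ t`. -/
theorem away_tensor (A : Type u) [CommRing A] [Algebra k A]
    {B C : Type u} [CommRing B] [CommRing C] [Algebra k B] [Algebra k C] [Algebra B C]
    [IsScalarTower k B C] (t : B) (h : IsLocalization.Away t C) :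
    IsLocalization.Away ((1 : A) ⊗ₜ[k] t) (A ⊗[k] C) := by
  have : IsLocalization (Submonoid.powers t) C := h
  have := IsLocalization.tensorProduct_tensorProduct_right k A (Submonoid.powers t) C
    (by
      ext b
      simp)
  rw [map_powers_includeRight] at this
  exact this

/-- The base change of a two-chart ring over `k` to a `k`-algebra `A`. -/
def _root_.Fermat.Agent.Jac.TwoChart.baseChange (c0 : TwoChart k B0 B1 B01)
    (A : Type u) [CommRing A] [Algebra k A] :
    TwoChart A (A ⊗[k] B0) (A ⊗[k] B1) (A ⊗[k] B01) where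
  t := 1 ⊗ₜ c0.t
  s := 1 ⊗ₜ c0.s
  away0 := away_tensor A c0.t c0.away0
  away1 := away_tensor A c0.s c0.away1
  ts := by
    rw [algebraMap_right_tmul, algebraMap_right_tmul, Algebra.TensorProduct.tmul_mul_tmul,
      c0.ts, mul_one]
    rfl

@[simp]
theorem baseChange_t (c0 : TwoChart k B0 B1 B01) (A : Type u) [CommRing A] [Algebra k A] :
    (c0.baseChange A).t = 1 ⊗ₜ c0.t := rfl

@[simp]
theorem baseChange_s (c0 : TwoChart k B0 B1 B01) (A : Type u) [CommRing A] [Algebra k A] :
    (c0.baseChange A).s = 1 ⊗ₜ c0.s := rfl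

theorem algebraMap_baseChange_t (c0 : TwoChart k B0 B1 B01) (A A' : Type u) [CommRing A]
    [CommRing A'] [Algebra k A] [Algebra k A'] [Algebra A A'] [IsScalarTower k A A'] :
    algebraMap (A ⊗[k] B0) (A' ⊗[k] B0) (c0.baseChange A).t = (c0.baseChange A').t := by
  simp

theorem algebraMap_baseChange_s (c0 : TwoChart k B0 B1 B01) (A A' : Type u) [CommRing A]
    [CommRing A'] [Algebra k A] [Algebra k A'] [Algebra A A'] [IsScalarTower k A A'] :
    algebraMap (A ⊗[k] B1) (A' ⊗[k] B1) (c0.baseChange A).s = (c0.baseChange A').s := by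
  simp

end TwoChart

section Line

open Polynomial

attribute [local instance] Polynomial.algebra

variable {k : Type u} [CommRing k] (A : Type u) [CommRing A] [Algebra k A]
  {B : Type u} [CommRing B] [Algebra k B]

/-- The `A`-linear identification `A ⊗[k] B ≃ A[X] ⊗[k[X]] B`, where `X` acts on `B` through
`t`. -/
noncomputable def aevalTensorEquivAux (t : B) :
    A ⊗[k] B ≃ₗ[A] A[X] ⊗[k[X]] Module.AEval k B t :=
  (TensorProduct.AlgebraTensorModule.congr (LinearEquiv.refl A A) (Module.AEval.of k B t)) ≪≫ₗ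
    (Algebra.IsPushout.cancelBaseChange k A k[X] A[X] (Module.AEval k B t)).symm

theorem aevalTensorEquivAux_tmul (t : B) (a : A) (b : B) :
    aevalTensorEquivAux A t (a ⊗ₜ[k] b) = (C a : A[X]) ⊗ₜ[k[X]] Module.AEval.of k B t b := by
  simp [aevalTensorEquivAux, Algebra.IsPushout.cancelBaseChange_symm_tmul]

theorem aevalTensorEquivAux_smul (t : B) (m : A ⊗[k] B) :
    aevalTensorEquivAux A t (((1 : A) ⊗ₜ[k] t) • m) = (X : A[X]) • aevalTensorEquivAux A t m := by
  induction m using TensorProduct.induction_on with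
  | zero => simp
  | add x y hx hy => rw [smul_add, map_add, hx, hy, map_add, smul_add]
  | tmul a b =>
    rw [smul_eq_mul, Algebra.TensorProduct.tmul_mul_tmul, one_mul, aevalTensorEquivAux_tmul,
      aevalTensorEquivAux_tmul, TensorProduct.smul_tmul', smul_eq_mul]
    have h1 : Module.AEval.of k B t (t * b) = (X : k[X]) • Module.AEval.of k B t b := by
      rw [Module.AEval.X_smul_of, smul_eq_mul]
    rw [h1, ← TensorProduct.smul_tmul, Algebra.smul_def, Polynomial.algebraMap_def]
    rw [Polynomial.coe_mapRingHom, Polynomial.map_X]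

/-- `A ⊗[k] B` with `X` acting through `1 ⊗ t` is the base change of `B` (with `X` acting
through `t`) along `k[X] → A[X]`. -/
noncomputable def aevalTensorEquiv (t : B) :
    Module.AEval A (A ⊗[k] B) ((1 : A) ⊗ₜ[k] t) ≃ₗ[A[X]] A[X] ⊗[k[X]] Module.AEval k B t :=
  LinearEquiv.ofAEval ((1 : A) ⊗ₜ[k] t) (aevalTensorEquivAux A t) (aevalTensorEquivAux_smul A t)

theorem finite_aeval_tensor (t : B) (h : Module.Finite k[X] (Module.AEval k B t)) :
    Module.Finite A[X] (Module.AEval A (A ⊗[k] B) ((1 : A) ⊗ₜ[k] t)) :=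
  Module.Finite.equiv (aevalTensorEquiv A t).symm

theorem projective_aeval_tensor (t : B) (h : Module.Projective k[X] (Module.AEval k B t)) :
    Module.Projective A[X] (Module.AEval A (A ⊗[k] B) ((1 : A) ⊗ₜ[k] t)) :=
  Module.Projective.of_equiv (aevalTensorEquiv A t).symm

end Line

section FiniteProj

open scoped Fermat.Agent.Jac.BaseChange75

variable {k B0 B1 B01 : Type u} [CommRing k] [CommRing B0] [CommRing B1] [CommRing B01]
  [Algebra k B0] [Algebra k B1] [Algebra k B01] [Algebra B0 B01] [Algebra B1 B01]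
  [IsScalarTower k B0 B01] [IsScalarTower k B1 B01]

/-- Finiteness and projectivity over the line are preserved by base change. -/
theorem _root_.Fermat.Agent.Jac.TwoChart.FiniteProjOverLine.baseChange
    {c0 : TwoChart k B0 B1 B01} (h : c0.FiniteProjOverLine)
    (A : Type u) [CommRing A] [Algebra k A] : (c0.baseChange A).FiniteProjOverLine where
  fin0 := finite_aeval_tensor A c0.t h.fin0
  proj0 := projective_aeval_tensor A c0.t h.proj0
  fin1 := finite_aeval_tensor A c0.s h.fin1
  proj1 := projective_aeval_tensor A c0.s h.proj1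

end FiniteProj

end Fermat.Agent.Jac.BaseChange75
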