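import Mathlib
import Fermat.Agent.Jac.Core
import Fermat.Agent.Jac.JSmooth85Alg
import Fermat.Agent.Jac.LineOps39.Basic
import Fermat.Agent.Jac.BaseChange75.Cube

/-!
# JAC brick BC, part 6: base change along a cube of ring isomorphisms  (helper75)

* `LiftData.unit` : the base change of `QC2.unit` is `QC2.unit` (any commuting cube).
* `InvCube` : the vertical maps `R0 → R0'`, `R1 → R1'`, `R01 → R01'` of the cube are ring
  isomorphisms, with inverses given by reverse algebra structures `R0' → R0` etc.
* `LiftData.symm` : for such a cube, `LiftData L L' → LiftData L' L`.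
* `LiftData.nonempty_iso_iff` : `L ≅ M ↔ L' ≅ M'`.
* `exists_liftData_of_invCube` : every `L'` is the base change of some `L`.
* `LiftData.isLine_iff`, `LiftData.isVB_iff`.

This is the tool to transport two-chart modules between two models of the chart rings (section
rings of a scheme / tensor rings).
-/

set_option autoImplicit false
set_option linter.style.haveILetI false
set_option linter.unusedSectionVars false

open TensorProduct

namespace Fermat.Agent.Jac.BaseChange75

universe u

open JSmooth85Alg LineOps39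

section Unit

variable {A R0 R1 R01 A' R0' R1' R01' : Type u}
  [CommRing A] [CommRing R0] [CommRing R1] [CommRing R01]
  [Algebra A R0] [Algebra A R1] [Algebra A R01] [Algebra R0 R01] [Algebra R1 R01]
  [IsScalarTower A R0 R01] [IsScalarTower A R1 R01]
  [CommRing A'] [CommRing R0'] [CommRing R1'] [CommRing R01']
  [Algebra A' R0'] [Algebra A' R1'] [Algebra A' R01'] [Algebra R0' R01'] [Algebra R1' R01']
  [IsScalarTower A' R0' R01'] [IsScalarTower A' R1' R01']
  [Algebra R0 R0'] [Algebra R1 R1'] [Algebra R01 R01']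
  (hc0 : (algebraMap R0' R01').comp (algebraMap R0 R0') =
    (algebraMap R01 R01').comp (algebraMap R0 R01))
  (hc1 : (algebraMap R1' R01').comp (algebraMap R1 R1') =
    (algebraMap R01 R01').comp (algebraMap R1 R01))

/-- The base change of the structure sheaf is the structure sheaf. -/
noncomputable def LiftData.unit :
    LiftData (QC2.unit : QC2 A R0 R1 R01) (QC2.unit : QC2 A' R0' R1' R01') where
  e0 := TensorProduct.AlgebraTensorModule.rid R0 R0' R0'
  e1 := TensorProduct.AlgebraTensorModule.rid R1 R1' R1'
  e01 := TensorProduct.AlgebraTensorModule.rid R01 R01' R01'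
  comm0 x := by
    have h := RingHom.congr_fun hc0 x
    simp only [RingHom.comp_apply] at h
    show TensorProduct.AlgebraTensorModule.rid R01 R01' R01'
        ((1 : R01') ⊗ₜ[R01] (algebraMap R0 R01 (x : R0))) =
      algebraMap R0' R01' (TensorProduct.AlgebraTensorModule.rid R0 R0' R0'
        ((1 : R0') ⊗ₜ[R0] (x : R0)))
    rw [TensorProduct.AlgebraTensorModule.rid_tmul, TensorProduct.AlgebraTensorModule.rid_tmul,
      Algebra.smul_def, Algebra.smul_def, mul_one, mul_one, h]
  comm1 x := by
    have h := RingHom.congr_fun hc1 x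
    simp only [RingHom.comp_apply] at h
    show TensorProduct.AlgebraTensorModule.rid R01 R01' R01'
        ((1 : R01') ⊗ₜ[R01] (algebraMap R1 R01 (x : R1))) =
      algebraMap R1' R01' (TensorProduct.AlgebraTensorModule.rid R1 R1' R1'
        ((1 : R1') ⊗ₜ[R1] (x : R1)))
    rw [TensorProduct.AlgebraTensorModule.rid_tmul, TensorProduct.AlgebraTensorModule.rid_tmul,
      Algebra.smul_def, Algebra.smul_def, mul_one, mul_one, h]

end Unit

section Inv

variable (R0 R1 R01 R0' R1' R01' : Type u)
  [CommRing R0] [CommRing R1] [CommRing R01] [CommRing R0'] [CommRing R1'] [CommRing R01']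
  [Algebra R0 R0'] [Algebra R1 R1'] [Algebra R01 R01']
  [Algebra R0' R0] [Algebra R1' R1] [Algebra R01' R01]

/-- The vertical maps of the cube are ring isomorphisms whose inverses are the reverse algebra
maps. -/
structure InvCube : Prop where
  left0 : ∀ x : R0, algebraMap R0' R0 (algebraMap R0 R0' x) = x
  right0 : ∀ y : R0', algebraMap R0 R0' (algebraMap R0' R0 y) = y
  left1 : ∀ x : R1, algebraMap R1' R1 (algebraMap R1 R1' x) = x
  right1 : ∀ y : R1', algebraMap R1 R1' (algebraMap R1' R1 y) = y
  left01 : ∀ x : R01, algebraMap R01' R01 (algebraMap R01 R01' x) = x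
  right01 : ∀ y : R01', algebraMap R01 R01' (algebraMap R01' R01 y) = y

variable {R0 R1 R01 R0' R1' R01'}

theorem InvCube.symm (I : InvCube R0 R1 R01 R0' R1' R01') : InvCube R0' R1' R01' R0 R1 R01 :=
  ⟨I.right0, I.left0, I.right1, I.left1, I.right01, I.left01⟩

variable [Algebra R0 R01] [Algebra R1 R01] [Algebra R0' R01'] [Algebra R1' R01']

/-- The reverse square commutes. -/
theorem InvCube.hc0 (I : InvCube R0 R1 R01 R0' R1' R01')
    (hc0 : (algebraMap R0' R01').comp (algebraMap R0 R0') =
      (algebraMap R01 R01').comp (algebraMap R0 R01)) :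
    (algebraMap R0 R01).comp (algebraMap R0' R0) =
      (algebraMap R01' R01).comp (algebraMap R0' R01') := by
  ext y
  simp only [RingHom.comp_apply]
  have h := RingHom.congr_fun hc0 (algebraMap R0' R0 y)
  simp only [RingHom.comp_apply, I.right0] at h
  rw [h, I.left01]

/-- The reverse square commutes. -/
theorem InvCube.hc1 (I : InvCube R0 R1 R01 R0' R1' R01')
    (hc1 : (algebraMap R1' R01').comp (algebraMap R1 R1') =
      (algebraMap R01 R01').comp (algebraMap R1 R01)) :
    (algebraMap R1 R01).comp (algebraMap R1' R1) =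
      (algebraMap R01' R01).comp (algebraMap R1' R01') := by
  ext y
  simp only [RingHom.comp_apply]
  have h := RingHom.congr_fun hc1 (algebraMap R1' R1 y)
  simp only [RingHom.comp_apply, I.right1] at h
  rw [h, I.left01]

end Inv

section Symm

variable {A R0 R1 R01 A' R0' R1' R01' : Type u}
  [CommRing A] [CommRing R0] [CommRing R1] [CommRing R01]
  [Algebra A R0] [Algebra A R1] [Algebra A R01] [Algebra R0 R01] [Algebra R1 R01]
  [IsScalarTower A R0 R01] [IsScalarTower A R1 R01]
  [CommRing A'] [CommRing R0'] [CommRing R1'] [CommRing R01']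
  [Algebra A' R0'] [Algebra A' R1'] [Algebra A' R01'] [Algebra R0' R01'] [Algebra R1' R01']
  [IsScalarTower A' R0' R01'] [IsScalarTower A' R1' R01']
  [Algebra R0 R0'] [Algebra R1 R1'] [Algebra R01 R01']
  [Algebra R0' R0] [Algebra R1' R1] [Algebra R01' R01]
  (I : InvCube R0 R1 R01 R0' R1' R01')
  (hc0 : (algebraMap R0' R01').comp (algebraMap R0 R0') =
    (algebraMap R01 R01').comp (algebraMap R0 R01))
  (hc1 : (algebraMap R1' R01').comp (algebraMap R1 R1') =
    (algebraMap R01 R01').comp (algebraMap R1 R01))

include I in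
theorem InvCube.tower0 : IsScalarTower R0 R0' R0 :=
  IsScalarTower.of_algebraMap_eq (fun x => (I.left0 x).symm)

include I in
theorem InvCube.tower1 : IsScalarTower R1 R1' R1 :=
  IsScalarTower.of_algebraMap_eq (fun x => (I.left1 x).symm)

include I in
theorem InvCube.tower01 : IsScalarTower R01 R01' R01 :=
  IsScalarTower.of_algebraMap_eq (fun x => (I.left01 x).symm)

/-- Going up and down again along a cube of ring isomorphisms gives back the module. -/
noncomputable def isoBcCubeOfInvCube {L : QC2 A R0 R1 R01} {L' : QC2 A' R0' R1' R01'}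
    (h : LiftData L L') :
    QC2.Iso L (bcCube A (I.hc0 hc0) (I.hc1 hc1) L') :=
  haveI := I.tower0
  haveI := I.tower1
  haveI := I.tower01
  LiftData.iso (LiftData.refl L)
    (LiftData.trans h (liftData_bcCube (A' := A) (I.hc0 hc0) (I.hc1 hc1) L'))

/-- For a cube of ring isomorphisms, base change can be inverted. -/
noncomputable def LiftData.symm {L : QC2 A R0 R1 R01} {L' : QC2 A' R0' R1' R01'}
    (h : LiftData L L') : LiftData L' L :=
  LiftData.ofIso (liftData_bcCube (A' := A) (I.hc0 hc0) (I.hc1 hc1) L')
    (isoSymm (isoBcCubeOfInvCube I hc0 hc1 h))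

include I hc0 hc1 in
/-- Base change along a cube of ring isomorphisms is fully faithful on isomorphism classes. -/
theorem LiftData.nonempty_iso_iff {L M : QC2 A R0 R1 R01} {L' M' : QC2 A' R0' R1' R01'}
    (h : LiftData L L') (g : LiftData M M') :
    Nonempty (QC2.Iso L M) ↔ Nonempty (QC2.Iso L' M') := by
  constructor
  · rintro ⟨i⟩
    exact ⟨LiftData.iso (LiftData.congrIso h i) g⟩
  · rintro ⟨i⟩
    exact ⟨LiftData.iso (LiftData.congrIso (LiftData.symm I hc0 hc1 h) i)
      (LiftData.symm I hc0 hc1 g)⟩

include I hc0 hc1 in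
/-- Base change along a cube of ring isomorphisms is essentially surjective. -/
theorem exists_liftData_of_invCube (L' : QC2 A' R0' R1' R01') :
    ∃ L : QC2 A R0 R1 R01, Nonempty (LiftData L L') :=
  ⟨bcCube A (I.hc0 hc0) (I.hc1 hc1) L',
    ⟨LiftData.symm I.symm (I.hc0 hc0) (I.hc1 hc1)
      (liftData_bcCube (A' := A) (I.hc0 hc0) (I.hc1 hc1) L')⟩⟩

include I hc0 hc1 in
theorem LiftData.isLine_iff {L : QC2 A R0 R1 R01} {L' : QC2 A' R0' R1' R01'}
    (h : LiftData L L') : L.IsLine ↔ L'.IsLine :=
  ⟨LiftData.isLine h, LiftData.isLine (LiftData.symm I hc0 hc1 h)⟩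

include I hc0 hc1 in
theorem LiftData.isVB_iff {L : QC2 A R0 R1 R01} {L' : QC2 A' R0' R1' R01'}
    (h : LiftData L L') : L.IsVB ↔ L'.IsVB :=
  ⟨LiftData.isVB h, LiftData.isVB (LiftData.symm I hc0 hc1 h)⟩

end Symm

end Fermat.Agent.Jac.BaseChange75
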