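import Mathlib
import Fermat.Agent.Jac.Core
import Fermat.Agent.Jac.JSmooth85Alg
import Fermat.Agent.Jac.BaseChange75.Cube

/-!
# JAC brick BC, part 3: the Čech complex of a base change  (helper75)

If `L'` is a base change of `L` (`JSmooth85Alg.LiftData L L'`) along a cube of rings whose
vertical faces over `A → A'` are pushouts (`R0' = A' ⊗[A] R0` etc.), then the Čech complex of `L'`
is isomorphic to the intrinsic base change `L.dBC A'` of the Čech complex of `L`:

* `LiftData.e0A`, `LiftData.e1A`, `LiftData.e01A` : `A' ⊗[A] L.N0 ≃ₗ[A'] L'.N0` etc.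
* `LiftData.eProd` : `A' ⊗[A] (L.N0 × L.N1) ≃ₗ[A'] L'.N0 × L'.N1`
* `LiftData.d_comp` : `L'.d ∘ eProd = e01A ∘ L.dBC A'`
* `LiftData.h0Equiv : L.H0BC A' ≃ₗ[A'] L'.H0`, `LiftData.h1Equiv : L.H1BC A' ≃ₗ[A'] L'.H1`.
-/

set_option autoImplicit false
set_option linter.style.haveILetI false
set_option linter.unusedSectionVars false

open TensorProduct

namespace Fermat.Agent.Jac.BaseChange75

universe u

open JSmooth85Alg

section Complex

variable {A R0 R1 R01 A' R0' R1' R01' : Type u}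
  [CommRing A] [CommRing R0] [CommRing R1] [CommRing R01]
  [Algebra A R0] [Algebra A R1] [Algebra A R01] [Algebra R0 R01] [Algebra R1 R01]
  [IsScalarTower A R0 R01] [IsScalarTower A R1 R01]
  [CommRing A'] [CommRing R0'] [CommRing R1'] [CommRing R01']
  [Algebra A' R0'] [Algebra A' R1'] [Algebra A' R01'] [Algebra R0' R01'] [Algebra R1' R01']
  [IsScalarTower A' R0' R01'] [IsScalarTower A' R1' R01']
  [Algebra R0 R0'] [Algebra R1 R1'] [Algebra R01 R01']
  [Algebra A A']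
  [Algebra A R0'] [IsScalarTower A A' R0'] [IsScalarTower A R0 R0'] [Algebra.IsPushout A A' R0 R0']
  [Algebra A R1'] [IsScalarTower A A' R1'] [IsScalarTower A R1 R1'] [Algebra.IsPushout A A' R1 R1']
  [Algebra A R01'] [IsScalarTower A A' R01'] [IsScalarTower A R01 R01']
  [Algebra.IsPushout A A' R01 R01']

variable {L : QC2 A R0 R1 R01} {L' : QC2 A' R0' R1' R01'} (h : LiftData L L')

/-- `A' ⊗[A] L.N0 ≃ L'.N0`. -/
noncomputable def LiftData.e0A : A' ⊗[A] L.N0 ≃ₗ[A'] L'.N0 :=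
  (Algebra.IsPushout.cancelBaseChange A A' R0 R0' L.N0).symm ≪≫ₗ h.e0.restrictScalars A'

/-- `A' ⊗[A] L.N1 ≃ L'.N1`. -/
noncomputable def LiftData.e1A : A' ⊗[A] L.N1 ≃ₗ[A'] L'.N1 :=
  (Algebra.IsPushout.cancelBaseChange A A' R1 R1' L.N1).symm ≪≫ₗ h.e1.restrictScalars A'

/-- `A' ⊗[A] L.N01 ≃ L'.N01`. -/
noncomputable def LiftData.e01A : A' ⊗[A] L.N01 ≃ₗ[A'] L'.N01 :=
  (Algebra.IsPushout.cancelBaseChange A A' R01 R01' L.N01).symm ≪≫ₗ h.e01.restrictScalars A'

@[simp]
theorem LiftData.e0A_one_tmul (n : L.N0) : LiftData.e0A h (1 ⊗ₜ[A] n) = h.e0 (1 ⊗ₜ[R0] n) := by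
  simp [LiftData.e0A, Algebra.IsPushout.cancelBaseChange_symm_tmul]

@[simp]
theorem LiftData.e1A_one_tmul (n : L.N1) : LiftData.e1A h (1 ⊗ₜ[A] n) = h.e1 (1 ⊗ₜ[R1] n) := by
  simp [LiftData.e1A, Algebra.IsPushout.cancelBaseChange_symm_tmul]

@[simp]
theorem LiftData.e01A_one_tmul (n : L.N01) : LiftData.e01A h (1 ⊗ₜ[A] n) = h.e01 (1 ⊗ₜ[R01] n) := by
  simp [LiftData.e01A, Algebra.IsPushout.cancelBaseChange_symm_tmul]

/-- `A' ⊗[A] (L.N0 × L.N1) ≃ L'.N0 × L'.N1`. -/
noncomputable def LiftData.eProd : A' ⊗[A] (L.N0 × L.N1) ≃ₗ[A'] (L'.N0 × L'.N1) :=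
  (TensorProduct.prodRight A A' A' L.N0 L.N1) ≪≫ₗ
    (LinearEquiv.prodCongr (LiftData.e0A h) (LiftData.e1A h))

@[simp]
theorem LiftData.eProd_one_tmul (x : L.N0 × L.N1) :
    LiftData.eProd h (1 ⊗ₜ[A] x) = (h.e0 (1 ⊗ₜ[R0] x.1), h.e1 (1 ⊗ₜ[R1] x.2)) := by
  simp [LiftData.eProd]

/-- The Čech differential of a base change is the intrinsic base change of the Čech
differential. -/
theorem LiftData.d_comp :
    L'.d ∘ₗ (LiftData.eProd h).toLinearMap = (LiftData.e01A h).toLinearMap ∘ₗ L.dBC A' := by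
  apply ext_one_tmul
  rintro ⟨n0, n1⟩
  simp only [LinearMap.coe_comp, LinearEquiv.coe_coe, Function.comp_apply,
    LiftData.eProd_one_tmul, QC2.dBC, LinearMap.baseChange_tmul, LiftData.e01A_one_tmul]
  simp only [QC2.d, LinearMap.coprod_apply, LinearMap.coe_restrictScalars, LinearMap.neg_apply,
    ← h.comm0, ← h.comm1, ← map_neg, ← map_add, ← TensorProduct.tmul_neg, ← TensorProduct.tmul_add]

theorem LiftData.d_apply (x : A' ⊗[A] (L.N0 × L.N1)) :
    L'.d (LiftData.eProd h x) = LiftData.e01A h (L.dBC A' x) :=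
  LinearMap.congr_fun (LiftData.d_comp h) x

theorem LiftData.map_H0BC :
    (L.H0BC A').map (LiftData.eProd h).toLinearMap = L'.H0 := by
  ext y
  simp only [Submodule.mem_map, QC2.H0BC, QC2.H0, LinearMap.mem_ker, LinearEquiv.coe_coe]
  constructor
  · rintro ⟨x, hx, rfl⟩
    rw [LiftData.d_apply, hx, map_zero]
  · intro hy
    refine ⟨(LiftData.eProd h).symm y, ?_, LinearEquiv.apply_symm_apply _ y⟩
    apply (LiftData.e01A h).injective
    rw [← LiftData.d_apply, LinearEquiv.apply_symm_apply, hy, map_zero]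

theorem LiftData.map_range_dBC :
    (LinearMap.range (L.dBC A')).map (LiftData.e01A h).toLinearMap = LinearMap.range L'.d := by
  rw [← LinearMap.range_comp, ← LiftData.d_comp, LinearMap.range_comp_of_range_eq_top]
  exact LinearEquiv.range _

/-- `H⁰` of a base change is the intrinsic `H0BC`. -/
noncomputable def LiftData.h0Equiv : L.H0BC A' ≃ₗ[A'] L'.H0 :=
  LinearEquiv.ofSubmodules (LiftData.eProd h) (L.H0BC A') L'.H0 (LiftData.map_H0BC h)

@[simp]
theorem LiftData.h0Equiv_coe (x : L.H0BC A') :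
    ((LiftData.h0Equiv h x : L'.H0) : L'.N0 × L'.N1) = LiftData.eProd h x := rfl

/-- `H¹` of a base change is the intrinsic `H1BC`. -/
noncomputable def LiftData.h1Equiv : L.H1BC A' ≃ₗ[A'] L'.H1 :=
  Submodule.Quotient.equiv _ _ (LiftData.e01A h) (LiftData.map_range_dBC h)

@[simp]
theorem LiftData.h1Equiv_mk (x : A' ⊗[A] L.N01) :
    LiftData.h1Equiv h (Submodule.Quotient.mk x) = Submodule.Quotient.mk (LiftData.e01A h x) :=
  rfl

include h in
/-- Vanishing of `H¹` can be tested on the intrinsic base change. -/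
theorem LiftData.subsingleton_H1_iff :
    Subsingleton L'.H1 ↔ Subsingleton (L.H1BC A') :=
  (LiftData.h1Equiv h).toEquiv.subsingleton_congr.symm

end Complex

end Fermat.Agent.Jac.BaseChange75
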