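import Mathlib
import Fermat.Agent.Jac.Core
import Fermat.Agent.Jac.JSmooth85Alg
import Fermat.Agent.Jac.BaseChange75.Rings
import Fermat.Agent.Jac.BaseChange75.Cube
import Fermat.Agent.Jac.BaseChange75.Complex

/-!
# JAC brick BC, part 4: base change of two-chart modules over tensor rings  (helper75)

`k` a commutative ring, `B0`, `B1`, `B01` the rings of a two-chart system over `k`, `A → A'`
`k`-algebras (instance form `[Algebra A A'] [IsScalarTower k A A']`).  For
`L : QC2 A (A ⊗[k] B0) (A ⊗[k] B1) (A ⊗[k] B01)` we define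
`L.baseChange A' : QC2 A' (A' ⊗[k] B0) (A' ⊗[k] B1) (A' ⊗[k] B01)` and identify its Čech complex
with the intrinsic `L.dBC A'`.

Use `open scoped Fermat.Agent.Jac.BaseChange75` to activate the algebra instances on the tensor
rings.
-/

set_option autoImplicit false
set_option linter.style.haveILetI false
set_option linter.unusedSectionVars false

open TensorProduct

namespace Fermat.Agent.Jac.BaseChange75

universe u

open JSmooth85Alg

open scoped Fermat.Agent.Jac.BaseChange75

scoped[Fermat.Agent.Jac.BaseChange75] attribute [instance] towerLeft'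

section Tensor

variable {k B0 B1 B01 : Type u} [CommRing k] [CommRing B0] [CommRing B1] [CommRing B01]
  [Algebra k B0] [Algebra k B1] [Algebra k B01] [Algebra B0 B01] [Algebra B1 B01]
  [IsScalarTower k B0 B01] [IsScalarTower k B1 B01]
  {A : Type u} [CommRing A] [Algebra k A]
  (A' : Type u) [CommRing A'] [Algebra k A'] [Algebra A A'] [IsScalarTower k A A']

/-- The base change of a two-chart module over `A` to an `A`-algebra `A'`. -/
noncomputable def _root_.Fermat.Agent.Jac.QC2.baseChange
    (L : QC2 A (A ⊗[k] B0) (A ⊗[k] B1) (A ⊗[k] B01)) :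
    QC2 A' (A' ⊗[k] B0) (A' ⊗[k] B1) (A' ⊗[k] B01) :=
  bcCube A' (square_comm k A A' B0 B01) (square_comm k A A' B1 B01) L

variable (L : QC2 A (A ⊗[k] B0) (A ⊗[k] B1) (A ⊗[k] B01))

/-- `L.baseChange A'` is a base change of `L`. -/
noncomputable def baseChange_liftData : LiftData L (L.baseChange A') :=
  liftData_bcCube (square_comm k A A' B0 B01) (square_comm k A A' B1 B01) L

@[simp]
theorem baseChange_r0_tmul (b : A' ⊗[k] B0) (n : L.N0) :
    (L.baseChange A').r0 (b ⊗ₜ[A ⊗[k] B0] n) =
      algebraMap (A' ⊗[k] B0) (A' ⊗[k] B01) b ⊗ₜ[A ⊗[k] B01] L.r0 n :=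
  bcCube_r0_tmul _ _ L b n

@[simp]
theorem baseChange_r1_tmul (b : A' ⊗[k] B1) (n : L.N1) :
    (L.baseChange A').r1 (b ⊗ₜ[A ⊗[k] B1] n) =
      algebraMap (A' ⊗[k] B1) (A' ⊗[k] B01) b ⊗ₜ[A ⊗[k] B01] L.r1 n :=
  bcCube_r1_tmul _ _ L b n

theorem baseChange_isLine (hL : L.IsLine) : (L.baseChange A').IsLine :=
  LiftData.isLine (baseChange_liftData A' L) hL

theorem baseChange_isVB (hL : L.IsVB) : (L.baseChange A').IsVB :=
  LiftData.isVB (baseChange_liftData A' L) hL

/-- `H⁰` of the base change is the intrinsic `H0BC`. -/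
noncomputable def baseChange_h0Equiv : L.H0BC A' ≃ₗ[A'] (L.baseChange A').H0 :=
  LiftData.h0Equiv (baseChange_liftData A' L)

/-- `H¹` of the base change is the intrinsic `H1BC`. -/
noncomputable def baseChange_h1Equiv : L.H1BC A' ≃ₗ[A'] (L.baseChange A').H1 :=
  LiftData.h1Equiv (baseChange_liftData A' L)

/-- Vanishing of `H¹` of the base change can be tested on the intrinsic `H1BC`. -/
theorem baseChange_subsingleton_H1_iff :
    Subsingleton (L.baseChange A').H1 ↔ Subsingleton (L.H1BC A') :=
  LiftData.subsingleton_H1_iff (baseChange_liftData A' L)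

/-- Base change is compatible with isomorphisms. -/
noncomputable def baseChange_iso {L M : QC2 A (A ⊗[k] B0) (A ⊗[k] B1) (A ⊗[k] B01)}
    (i : QC2.Iso L M) : QC2.Iso (L.baseChange A') (M.baseChange A') :=
  LiftData.iso (LiftData.congrIso (baseChange_liftData A' L) i) (baseChange_liftData A' M)

/-- Any base change of `L` (in the sense of `LiftData`) is isomorphic to `L.baseChange A'`. -/
noncomputable def LiftData.isoBaseChange
    {L' : QC2 A' (A' ⊗[k] B0) (A' ⊗[k] B1) (A' ⊗[k] B01)} (h : LiftData L L') :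
    QC2.Iso (L.baseChange A') L' :=
  LiftData.iso (baseChange_liftData A' L) h

end Tensor

end Fermat.Agent.Jac.BaseChange75
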