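import Mathlib
import Fermat.Agent.Jac.Core
import Fermat.Agent.Jac.JSmooth85Alg
import Fermat.Agent.Jac.FlatBC60
import Fermat.Agent.Jac.SmallClasses42Field
import Fermat.Agent.Jac.P1CohChi.Chi
import Fermat.Agent.Jac.BaseChange75.Rings
import Fermat.Agent.Jac.BaseChange75.Cube
import Fermat.Agent.Jac.BaseChange75.Complex
import Fermat.Agent.Jac.BaseChange75.Tensor

/-!
# JAC brick BC, part 8: fibres of a base change  (helper75)

If `L'` is a base change of `L` along `A → A'` (cube with pushout faces) and `K` is an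
`A'`-algebra, then the intrinsic base changes to `K` of the Čech complexes of `L'` and of `L`
are isomorphic:

* `LiftData.h0BCEquiv : L.H0BC K ≃ₗ[K] L'.H0BC K`, `LiftData.h1BCEquiv : L.H1BC K ≃ₗ[K] L'.H1BC K`;
* `LiftData.chiField_eq : L'.chiField K = L.chiField K` (`K` a field);
* `LiftData.chi_eq : L'.chi q = L.chi (q.comap (algebraMap A A'))`.
-/

set_option autoImplicit false
set_option linter.style.haveILetI false
set_option linter.unusedSectionVars false

open TensorProduct

namespace Fermat.Agent.Jac.BaseChange75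

universe u

open JSmooth85Alg

section Arrow

variable {K M N M' N' : Type u} [CommRing K] [AddCommGroup M] [AddCommGroup N] [AddCommGroup M']
  [AddCommGroup N'] [Module K M] [Module K N] [Module K M'] [Module K N']
  (d : M →ₗ[K] N) (d' : M' →ₗ[K] N') (eM : M ≃ₗ[K] M') (eN : N ≃ₗ[K] N')
  (hd : d' ∘ₗ eM.toLinearMap = eN.toLinearMap ∘ₗ d)

include hd in
theorem arrow_apply (x : M) : d' (eM x) = eN (d x) := LinearMap.congr_fun hd x

include hd in
theorem map_ker_of_arrowIso : (LinearMap.ker d).map eM.toLinearMap = LinearMap.ker d' := by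
  ext y
  simp only [Submodule.mem_map, LinearMap.mem_ker, LinearEquiv.coe_coe]
  constructor
  · rintro ⟨x, hx, rfl⟩
    rw [arrow_apply d d' eM eN hd, hx, map_zero]
  · intro hy
    refine ⟨eM.symm y, ?_, LinearEquiv.apply_symm_apply _ y⟩
    apply eN.injective
    rw [← arrow_apply d d' eM eN hd, LinearEquiv.apply_symm_apply, hy, map_zero]

include hd in
theorem map_range_of_arrowIso :
    (LinearMap.range d).map eN.toLinearMap = LinearMap.range d' := by
  rw [← LinearMap.range_comp, ← hd, LinearMap.range_comp_of_range_eq_top]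
  exact LinearEquiv.range _

/-- An isomorphism of arrows induces an isomorphism of kernels. -/
noncomputable def kerEquivOfArrowIso : LinearMap.ker d ≃ₗ[K] LinearMap.ker d' :=
  LinearEquiv.ofSubmodules eM _ _ (map_ker_of_arrowIso d d' eM eN hd)

/-- An isomorphism of arrows induces an isomorphism of cokernels. -/
noncomputable def cokerEquivOfArrowIso :
    (N ⧸ LinearMap.range d) ≃ₗ[K] (N' ⧸ LinearMap.range d') :=
  Submodule.Quotient.equiv _ _ eN (map_range_of_arrowIso d d' eM eN hd)

end Arrow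

section Fibre

variable {A R0 R1 R01 A' R0' R1' R01' : Type u}
  [CommRing A] [CommRing R0] [CommRing R1] [CommRing R01]
  [Algebra A R0] [Algebra A R1] [Algebra A R01] [Algebra R0 R01] [Algebra R1 R01]
  [IsScalarTower A R0 R01] [IsScalarTower A R1 R01]
  [CommRing A'] [CommRing R0'] [CommRing R1'] [CommRing R01']
  [Algebra A' R0'] [Algebra A' R1'] [Algebra A' R01'] [Algebra R0' R01'] [Algebra R1' R01']
  [IsScalarTower A' R0' R01'] [IsScalarTower A' R1' R01']
  [Algebra R0 R0'] [Algebra R1 R1'] [Algebra R01 R01']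
  [Algebra A A']
  [Algebra A R0'] [IsScalarTower A A' R0'] [IsScalarTower A R0 R0'] [Algebra.IsPushout A A' R0 R0']
  [Algebra A R1'] [IsScalarTower A A' R1'] [IsScalarTower A R1 R1'] [Algebra.IsPushout A A' R1 R1']
  [Algebra A R01'] [IsScalarTower A A' R01'] [IsScalarTower A R01 R01']
  [Algebra.IsPushout A A' R01 R01']

variable {L : QC2 A R0 R1 R01} {L' : QC2 A' R0' R1' R01'} (h : LiftData L L')
  (K : Type u) [CommRing K] [Algebra A' K] [Algebra A K] [IsScalarTower A A' K]

/-- `K ⊗[A] (L.N0 × L.N1) ≃ K ⊗[A'] (L'.N0 × L'.N1)`. -/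
noncomputable def LiftData.eProdK :
    K ⊗[A] (L.N0 × L.N1) ≃ₗ[K] K ⊗[A'] (L'.N0 × L'.N1) :=
  (FlatBC60.transEquiv A' K (L.N0 × L.N1)).symm ≪≫ₗ
    (LiftData.eProd h).baseChange A' K _ _

/-- `K ⊗[A] L.N01 ≃ K ⊗[A'] L'.N01`. -/
noncomputable def LiftData.e01K : K ⊗[A] L.N01 ≃ₗ[K] K ⊗[A'] L'.N01 :=
  (FlatBC60.transEquiv A' K L.N01).symm ≪≫ₗ (LiftData.e01A h).baseChange A' K _ _

@[simp]
theorem LiftData.eProdK_one_tmul (x : L.N0 × L.N1) :
    LiftData.eProdK h K (1 ⊗ₜ[A] x) = (1 : K) ⊗ₜ[A'] LiftData.eProd h (1 ⊗ₜ[A] x) := by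
  simp [LiftData.eProdK]

@[simp]
theorem LiftData.e01K_one_tmul (x : L.N01) :
    LiftData.e01K h K (1 ⊗ₜ[A] x) = (1 : K) ⊗ₜ[A'] LiftData.e01A h (1 ⊗ₜ[A] x) := by
  simp [LiftData.e01K]

/-- The fibre complexes of `L` and of its base change `L'` over an `A'`-algebra `K` agree. -/
theorem LiftData.dBC_comp :
    L'.dBC K ∘ₗ (LiftData.eProdK h K).toLinearMap =
      (LiftData.e01K h K).toLinearMap ∘ₗ L.dBC K := by
  apply ext_one_tmul
  intro x
  simp only [LinearMap.coe_comp, LinearEquiv.coe_coe, Function.comp_apply,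
    LiftData.eProdK_one_tmul, QC2.dBC, LinearMap.baseChange_tmul, LiftData.e01K_one_tmul]
  rw [LiftData.d_apply]
  simp [QC2.dBC]

/-- `H⁰` of the fibre over `K` of a base change. -/
noncomputable def LiftData.h0BCEquiv : L.H0BC K ≃ₗ[K] L'.H0BC K :=
  kerEquivOfArrowIso (L.dBC K) (L'.dBC K) (LiftData.eProdK h K) (LiftData.e01K h K)
    (LiftData.dBC_comp h K)

/-- `H¹` of the fibre over `K` of a base change. -/
noncomputable def LiftData.h1BCEquiv : L.H1BC K ≃ₗ[K] L'.H1BC K :=
  cokerEquivOfArrowIso (L.dBC K) (L'.dBC K) (LiftData.eProdK h K) (LiftData.e01K h K)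
    (LiftData.dBC_comp h K)

include h in
theorem LiftData.subsingleton_H1BC_iff : Subsingleton (L'.H1BC K) ↔ Subsingleton (L.H1BC K) :=
  (LiftData.h1BCEquiv h K).toEquiv.subsingleton_congr.symm

include h in
theorem LiftData.subsingleton_H0BC_iff : Subsingleton (L'.H0BC K) ↔ Subsingleton (L.H0BC K) :=
  (LiftData.h0BCEquiv h K).toEquiv.subsingleton_congr.symm

end Fibre

section Chi

variable {A R0 R1 R01 A' R0' R1' R01' : Type u}
  [CommRing A] [CommRing R0] [CommRing R1] [CommRing R01]
  [Algebra A R0] [Algebra A R1] [Algebra A R01] [Algebra R0 R01] [Algebra R1 R01]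
  [IsScalarTower A R0 R01] [IsScalarTower A R1 R01]
  [CommRing A'] [CommRing R0'] [CommRing R1'] [CommRing R01']
  [Algebra A' R0'] [Algebra A' R1'] [Algebra A' R01'] [Algebra R0' R01'] [Algebra R1' R01']
  [IsScalarTower A' R0' R01'] [IsScalarTower A' R1' R01']
  [Algebra R0 R0'] [Algebra R1 R1'] [Algebra R01 R01']
  [Algebra A A']
  [Algebra A R0'] [IsScalarTower A A' R0'] [IsScalarTower A R0 R0'] [Algebra.IsPushout A A' R0 R0']
  [Algebra A R1'] [IsScalarTower A A' R1'] [IsScalarTower A R1 R1'] [Algebra.IsPushout A A' R1 R1']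
  [Algebra A R01'] [IsScalarTower A A' R01'] [IsScalarTower A R01 R01']
  [Algebra.IsPushout A A' R01 R01']

variable {L : QC2 A R0 R1 R01} {L' : QC2 A' R0' R1' R01'} (h : LiftData L L')

include h in
/-- The Euler characteristic of the fibre over an `A'`-field `K` of a base change. -/
theorem LiftData.chiField_eq (K : Type u) [Field K] [Algebra A' K] [Algebra A K]
    [IsScalarTower A A' K] : L'.chiField K = L.chiField K := by
  rw [QC2.chiField, QC2.chiField, (LiftData.h0BCEquiv h K).finrank_eq,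
    (LiftData.h1BCEquiv h K).finrank_eq]

include h in
/-- The fibrewise Euler characteristic of a base change is the pullback of the fibrewise Euler
characteristic. -/
theorem LiftData.chi_eq (q : PrimeSpectrum A') :
    L'.chi q = L.chi (q.comap (algebraMap A A')) := by
  let p : PrimeSpectrum A := q.comap (algebraMap A A')
  let φ : p.asIdeal.ResidueField →+* q.asIdeal.ResidueField :=
    Ideal.ResidueField.map p.asIdeal q.asIdeal (algebraMap A A') rfl
  letI : Algebra p.asIdeal.ResidueField q.asIdeal.ResidueField := φ.toAlgebra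
  haveI : IsScalarTower A p.asIdeal.ResidueField q.asIdeal.ResidueField :=
    IsScalarTower.of_algebraMap_eq (fun r => by
      show algebraMap A q.asIdeal.ResidueField r = φ (algebraMap A p.asIdeal.ResidueField r)
      rw [Ideal.ResidueField.map_algebraMap, IsScalarTower.algebraMap_apply A A'])
  show L'.chiField q.asIdeal.ResidueField = L.chiField p.asIdeal.ResidueField
  rw [LiftData.chiField_eq h q.asIdeal.ResidueField]
  exact SmallClasses42Field.chiField_eq L p.asIdeal.ResidueField q.asIdeal.ResidueField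

end Chi

section Tensor

open scoped Fermat.Agent.Jac.BaseChange75

variable {k B0 B1 B01 : Type u} [CommRing k] [CommRing B0] [CommRing B1] [CommRing B01]
  [Algebra k B0] [Algebra k B1] [Algebra k B01] [Algebra B0 B01] [Algebra B1 B01]
  [IsScalarTower k B0 B01] [IsScalarTower k B1 B01]
  {A A' : Type u} [CommRing A] [Algebra k A] [CommRing A'] [Algebra k A'] [Algebra A A']
  [IsScalarTower k A A']
  {L : QC2 A (A ⊗[k] B0) (A ⊗[k] B1) (A ⊗[k] B01)}
  {L' : QC2 A' (A' ⊗[k] B0) (A' ⊗[k] B1) (A' ⊗[k] B01)}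

/-- Tensor-ring form of `LiftData.h0BCEquiv`. -/
noncomputable def LiftData.h0BCEquivTensor (h : LiftData L L') (K : Type u) [CommRing K]
    [Algebra A' K] [Algebra A K] [IsScalarTower A A' K] : L.H0BC K ≃ₗ[K] L'.H0BC K :=
  LiftData.h0BCEquiv h K

/-- Tensor-ring form of `LiftData.h1BCEquiv`. -/
noncomputable def LiftData.h1BCEquivTensor (h : LiftData L L') (K : Type u) [CommRing K]
    [Algebra A' K] [Algebra A K] [IsScalarTower A A' K] : L.H1BC K ≃ₗ[K] L'.H1BC K :=
  LiftData.h1BCEquiv h K

/-- Tensor-ring form of `LiftData.chiField_eq`. -/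
theorem LiftData.chiField_eq_tensor (h : LiftData L L') (K : Type u) [Field K]
    [Algebra A' K] [Algebra A K] [IsScalarTower A A' K] : L'.chiField K = L.chiField K :=
  LiftData.chiField_eq h K

/-- Tensor-ring form of `LiftData.chi_eq`. -/
theorem LiftData.chi_eq_tensor (h : LiftData L L') (q : PrimeSpectrum A') :
    L'.chi q = L.chi (q.comap (algebraMap A A')) :=
  LiftData.chi_eq h q

variable (A') in
theorem baseChange_chi (L : QC2 A (A ⊗[k] B0) (A ⊗[k] B1) (A ⊗[k] B01))
    (q : PrimeSpectrum A') :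
    (L.baseChange A').chi q = L.chi (q.comap (algebraMap A A')) :=
  LiftData.chi_eq (baseChange_liftData A' L) q

end Tensor

end Fermat.Agent.Jac.BaseChange75
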