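import Mathlib
import Fermat.Agent.Jac.Core
import Fermat.Agent.Jac.JSmooth85Alg
import Fermat.Agent.Jac.LineOps39.Basic
import Fermat.Agent.Jac.BaseChange75.Rings
import Fermat.Agent.Jac.BaseChange75.Cube
import Fermat.Agent.Jac.BaseChange75.Complex
import Fermat.Agent.Jac.BaseChange75.Tensor

/-!
# JAC brick BC, part 7: transitivity and identity of base change over tensor rings  (helper75)

* `towerLeft3` (scoped instance) : `A ⊗[k] B → A' ⊗[k] B → A'' ⊗[k] B` is a scalar tower.
* `LiftData.transTensor` : base changes along `A → A'` and `A' → A''` compose.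
* `baseChange_baseChange` : `(L.baseChange A').baseChange A'' ≅ L.baseChange A''`.
* `tensorEquivOfSemilinear`, `LiftData.ofSemilinear` : a base change datum from semilinear
  additive equivalences of the chart modules (vertical ring maps surjective).
* `liftData_self`, `baseChange_self` : base change along the identity `A → A` does nothing
  (`L.baseChange A ≅ L`; note that `algLeft k A A B` is not syntactically `Algebra.id`).
-/

set_option autoImplicit false
set_option linter.style.haveILetI false
set_option linter.unusedSectionVars false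

open TensorProduct

namespace Fermat.Agent.Jac.BaseChange75

universe u

open JSmooth85Alg LineOps39

open scoped Fermat.Agent.Jac.BaseChange75

section Tower

variable (k A A' A'' B : Type u) [CommRing k] [CommRing A] [CommRing A'] [CommRing A'']
  [CommRing B] [Algebra k A] [Algebra k A'] [Algebra k A''] [Algebra k B]
  [Algebra A A'] [IsScalarTower k A A'] [Algebra A' A''] [IsScalarTower k A' A'']
  [Algebra A A''] [IsScalarTower k A A''] [IsScalarTower A A' A'']

/-- `A ⊗[k] B → A' ⊗[k] B → A'' ⊗[k] B` is a scalar tower (scoped instance). -/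
theorem towerLeft3 : IsScalarTower (A ⊗[k] B) (A' ⊗[k] B) (A'' ⊗[k] B) :=
  IsScalarTower.of_algebraMap_eq (fun x => by
    induction x using TensorProduct.induction_on with
    | zero => simp
    | add x y hx hy => rw [map_add, map_add, map_add, hx, hy]
    | tmul a b =>
      rw [algebraMap_left_tmul, algebraMap_left_tmul, algebraMap_left_tmul,
        ← IsScalarTower.algebraMap_apply])

scoped[Fermat.Agent.Jac.BaseChange75] attribute [instance] towerLeft3

end Tower

section Trans

variable {k B0 B1 B01 : Type u} [CommRing k] [CommRing B0] [CommRing B1] [CommRing B01]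
  [Algebra k B0] [Algebra k B1] [Algebra k B01] [Algebra B0 B01] [Algebra B1 B01]
  [IsScalarTower k B0 B01] [IsScalarTower k B1 B01]
  {A A' A'' : Type u} [CommRing A] [CommRing A'] [CommRing A'']
  [Algebra k A] [Algebra k A'] [Algebra k A'']
  [Algebra A A'] [IsScalarTower k A A'] [Algebra A' A''] [IsScalarTower k A' A'']
  [Algebra A A''] [IsScalarTower k A A''] [IsScalarTower A A' A'']

/-- Base changes along `A → A'` and `A' → A''` compose to a base change along `A → A''`. -/
noncomputable def LiftData.transTensor
    {L : QC2 A (A ⊗[k] B0) (A ⊗[k] B1) (A ⊗[k] B01)}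
    {L' : QC2 A' (A' ⊗[k] B0) (A' ⊗[k] B1) (A' ⊗[k] B01)}
    {L'' : QC2 A'' (A'' ⊗[k] B0) (A'' ⊗[k] B1) (A'' ⊗[k] B01)}
    (h : LiftData L L') (h' : LiftData L' L'') : LiftData L L'' :=
  LiftData.trans h h'

variable (A' A'') in
/-- Base change is transitive. -/
noncomputable def baseChange_baseChange (L : QC2 A (A ⊗[k] B0) (A ⊗[k] B1) (A ⊗[k] B01)) :
    QC2.Iso ((L.baseChange A').baseChange A'') (L.baseChange A'') :=
  LiftData.iso
    (LiftData.transTensor (baseChange_liftData A' L) (baseChange_liftData A'' (L.baseChange A')))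
    (baseChange_liftData A'' L)

end Trans

section Semilinear

variable {R R' N N' : Type u} [CommRing R] [CommRing R'] [Algebra R R']
  [AddCommGroup N] [Module R N] [AddCommGroup N'] [Module R' N']
  (hs : Function.Surjective (algebraMap R R')) (f : N ≃+ N')
  (hf : ∀ (r : R) (n : N), f (r • n) = algebraMap R R' r • f n)

include hf in
theorem symm_smul_of_semilinear (r : R) (n' : N') :
    f.symm (algebraMap R R' r • n') = r • f.symm n' := by
  apply f.injective
  rw [hf, AddEquiv.apply_symm_apply, AddEquiv.apply_symm_apply]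

/-- The forward map `R' ⊗[R] N → N'`, `r' ⊗ n ↦ r' • f n`. -/
noncomputable def tensorToOfSemilinear : R' ⊗[R] N →ₗ[R'] N' :=
  letI : Module R N' := Module.compHom N' (algebraMap R R')
  haveI : IsScalarTower R R' N' :=
    ⟨fun r r' n' => by
      show (r • r') • n' = algebraMap R R' r • (r' • n')
      rw [Algebra.smul_def, mul_smul]⟩
  LinearMap.liftBaseChange R'
    ({ toFun := f, map_add' := f.map_add, map_smul' := fun r n => hf r n } : N →ₗ[R] N')

@[simp]
theorem tensorToOfSemilinear_tmul (r' : R') (n : N) :
    tensorToOfSemilinear f hf (r' ⊗ₜ[R] n) = r' • f n := rfl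

/-- A semilinear additive equivalence `N ≃+ N'` over a surjective ring map `R → R'` identifies
`N'` with the base change `R' ⊗[R] N`. -/
noncomputable def tensorEquivOfSemilinear : R' ⊗[R] N ≃ₗ[R'] N' :=
  LinearEquiv.ofLinearMap (tensorToOfSemilinear f hf)
    { toFun := fun n' => (1 : R') ⊗ₜ[R] f.symm n'
      map_add' := fun x y => by rw [map_add, TensorProduct.tmul_add]
      map_smul' := fun r' n' => by
        obtain ⟨r, rfl⟩ := hs r'
        simp only [RingHom.id_apply]
        rw [symm_smul_of_semilinear f hf, TensorProduct.tmul_smul, TensorProduct.smul_tmul',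
          TensorProduct.smul_tmul', Algebra.smul_def, smul_eq_mul] }
    (by
      ext n'
      simp)
    (by
      apply ext_one_tmul
      intro n
      simp)

@[simp]
theorem tensorEquivOfSemilinear_tmul (r' : R') (n : N) :
    tensorEquivOfSemilinear hs f hf (r' ⊗ₜ[R] n) = r' • f n := rfl

end Semilinear

section OfSemilinear

variable {A R0 R1 R01 A' R0' R1' R01' : Type u}
  [CommRing A] [CommRing R0] [CommRing R1] [CommRing R01]
  [Algebra A R0] [Algebra A R1] [Algebra A R01] [Algebra R0 R01] [Algebra R1 R01]
  [IsScalarTower A R0 R01] [IsScalarTower A R1 R01]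
  [CommRing A'] [CommRing R0'] [CommRing R1'] [CommRing R01']
  [Algebra A' R0'] [Algebra A' R1'] [Algebra A' R01'] [Algebra R0' R01'] [Algebra R1' R01']
  [IsScalarTower A' R0' R01'] [IsScalarTower A' R1' R01']
  [Algebra R0 R0'] [Algebra R1 R1'] [Algebra R01 R01']

/-- A base change datum from semilinear additive equivalences of the chart modules (the vertical
ring maps being surjective, e.g. isomorphisms). -/
noncomputable def LiftData.ofSemilinear {L : QC2 A R0 R1 R01} {L' : QC2 A' R0' R1' R01'}
    (hs0 : Function.Surjective (algebraMap R0 R0')) (hs1 : Function.Surjective (algebraMap R1 R1'))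
    (hs01 : Function.Surjective (algebraMap R01 R01'))
    (f0 : L.N0 ≃+ L'.N0) (f1 : L.N1 ≃+ L'.N1) (f01 : L.N01 ≃+ L'.N01)
    (hf0 : ∀ (r : R0) (n : L.N0), f0 (r • n) = algebraMap R0 R0' r • f0 n)
    (hf1 : ∀ (r : R1) (n : L.N1), f1 (r • n) = algebraMap R1 R1' r • f1 n)
    (hf01 : ∀ (r : R01) (n : L.N01), f01 (r • n) = algebraMap R01 R01' r • f01 n)
    (c0 : ∀ n, f01 (L.r0 n) = L'.r0 (f0 n)) (c1 : ∀ n, f01 (L.r1 n) = L'.r1 (f1 n)) :
    LiftData L L' where
  e0 := tensorEquivOfSemilinear hs0 f0 hf0
  e1 := tensorEquivOfSemilinear hs1 f1 hf1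
  e01 := tensorEquivOfSemilinear hs01 f01 hf01
  comm0 x := by
    rw [tensorEquivOfSemilinear_tmul, tensorEquivOfSemilinear_tmul, one_smul, one_smul, c0]
  comm1 x := by
    rw [tensorEquivOfSemilinear_tmul, tensorEquivOfSemilinear_tmul, one_smul, one_smul, c1]

end OfSemilinear

section Self

attribute [local instance 2000] algLeft

variable {k B0 B1 B01 : Type u} [CommRing k] [CommRing B0] [CommRing B1] [CommRing B01]
  [Algebra k B0] [Algebra k B1] [Algebra k B01] [Algebra B0 B01] [Algebra B1 B01]
  [IsScalarTower k B0 B01] [IsScalarTower k B1 B01]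
  {A : Type u} [CommRing A] [Algebra k A]

theorem algebraMap_left_self (B : Type u) [CommRing B] [Algebra k B] (x : A ⊗[k] B) :
    algebraMap (A ⊗[k] B) (A ⊗[k] B) x = x := by
  induction x using TensorProduct.induction_on with
  | zero => simp
  | add x y hx hy => rw [map_add, hx, hy]
  | tmul a b => rw [algebraMap_left_tmul, Algebra.algebraMap_self, RingHom.id_apply]

/-- Every two-chart module over the tensor rings is its own base change along `A → A` (for the
`algLeft` algebra structure of `A ⊗[k] B` over itself induced by `Algebra.id A`). -/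
noncomputable def liftData_self (L : QC2 A (A ⊗[k] B0) (A ⊗[k] B1) (A ⊗[k] B01)) :
    LiftData L L :=
  LiftData.ofSemilinear
    (fun x => ⟨x, algebraMap_left_self B0 x⟩) (fun x => ⟨x, algebraMap_left_self B1 x⟩)
    (fun x => ⟨x, algebraMap_left_self B01 x⟩)
    (AddEquiv.refl _) (AddEquiv.refl _) (AddEquiv.refl _)
    (fun r n => by rw [algebraMap_left_self]; rfl)
    (fun r n => by rw [algebraMap_left_self]; rfl)
    (fun r n => by rw [algebraMap_left_self]; rfl)
    (fun _ => rfl) (fun _ => rfl)

/-- Base change along the identity does nothing. -/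
noncomputable def baseChange_self (L : QC2 A (A ⊗[k] B0) (A ⊗[k] B1) (A ⊗[k] B01)) :
    QC2.Iso (L.baseChange A) L :=
  LiftData.iso (baseChange_liftData A L) (liftData_self L)

end Self

end Fermat.Agent.Jac.BaseChange75
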