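import Mathlib
import Fermat.Agent.Jac.Core
import Fermat.Agent.Jac.JSmooth85Alg
import Fermat.Agent.Jac.BaseChange75.Cube
import Fermat.Agent.Jac.BaseChange75.RingIso
import Fermat.Agent.Jac.BaseChange75.Trans

/-!
# JAC brick BC, part 10: squares of base changes, semilinear descriptions  (helper75)

* `tensorLiftOfSemilinear f hf : R' ⊗[R] N →ₗ[R'] N'` for an additive map `f : N →+ N'` which is
  semilinear along `algebraMap R R'`; `LiftData.ofSemilinearBijective` : a base change datum from
  semilinear maps of the chart modules whose linearisations are bijective (e.g. the canonical maps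
  on sections `Γ(M, U) → Γ(f^* M, V)`).
* `LiftData.toAdd0/1/01`, `LiftData.toAdd0_smul`, ... : the semilinear maps `L.N0 →+ L'.N0`
  underlying a base change datum, `n ↦ e0 (1 ⊗ n)`; they are bijective for a cube of ring
  isomorphisms (`LiftData.addEquiv0/1/01`).
* `LiftData.ofSquare` : in a commutative square of cubes of rings
  `T → S`, `T → T'`, `S → S'`, `T' → S'`, if `G` is a base change of `L` (along `T → S`), `G'` a
  base change of `G` (along `S → S'`) and `L'` a base change of `L` (along `T → T'`), then `G'` is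
  a base change of `L'` (along `T' → S'`).  This is the algebra behind the naturality
  (`baseChange`) field of the affine dictionary.
-/

set_option autoImplicit false
set_option linter.style.haveILetI false
set_option linter.unusedSectionVars false

open TensorProduct

namespace Fermat.Agent.Jac.BaseChange75

universe u

open JSmooth85Alg LineOps39

section Semilinear

variable {R R' N N' : Type u} [CommRing R] [CommRing R'] [Algebra R R']
  [AddCommGroup N] [Module R N] [AddCommGroup N'] [Module R' N']
  (f : N →+ N') (hf : ∀ (r : R) (n : N), f (r • n) = algebraMap R R' r • f n)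

/-- The linearisation `R' ⊗[R] N → N'`, `r' ⊗ n ↦ r' • f n`, of a semilinear additive map. -/
noncomputable def tensorLiftOfSemilinear : R' ⊗[R] N →ₗ[R'] N' :=
  letI : Module R N' := Module.compHom N' (algebraMap R R')
  haveI : IsScalarTower R R' N' :=
    ⟨fun r r' n' => by
      show (r • r') • n' = algebraMap R R' r • (r' • n')
      rw [Algebra.smul_def, mul_smul]⟩
  LinearMap.liftBaseChange R'
    ({ toFun := f, map_add' := f.map_add, map_smul' := fun r n => hf r n } : N →ₗ[R] N')

@[simp]
theorem tensorLiftOfSemilinear_tmul (r' : R') (n : N) :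
    tensorLiftOfSemilinear f hf (r' ⊗ₜ[R] n) = r' • f n := rfl

/-- If a linear equivalence `e : R' ⊗[R] N ≃ₗ[R'] N'` restricts to `f` on `1 ⊗ n`, then the
linearisation of `f` is bijective. -/
theorem tensorLiftOfSemilinear_bijective_of_equiv (e : R' ⊗[R] N ≃ₗ[R'] N')
    (he : ∀ n, e (1 ⊗ₜ[R] n) = f n) : Function.Bijective (tensorLiftOfSemilinear f hf) := by
  have h : tensorLiftOfSemilinear f hf = e.toLinearMap := by
    apply ext_one_tmul
    intro n
    simp [he]
  rw [h]
  exact e.bijective

end Semilinear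

section Cube

variable {A R0 R1 R01 A' R0' R1' R01' : Type u}
  [CommRing A] [CommRing R0] [CommRing R1] [CommRing R01]
  [Algebra A R0] [Algebra A R1] [Algebra A R01] [Algebra R0 R01] [Algebra R1 R01]
  [IsScalarTower A R0 R01] [IsScalarTower A R1 R01]
  [CommRing A'] [CommRing R0'] [CommRing R1'] [CommRing R01']
  [Algebra A' R0'] [Algebra A' R1'] [Algebra A' R01'] [Algebra R0' R01'] [Algebra R1' R01']
  [IsScalarTower A' R0' R01'] [IsScalarTower A' R1' R01']
  [Algebra R0 R0'] [Algebra R1 R1'] [Algebra R01 R01']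

/-- A base change datum from semilinear additive maps of the chart modules whose linearisations
are bijective. -/
noncomputable def LiftData.ofSemilinearBijective {L : QC2 A R0 R1 R01} {L' : QC2 A' R0' R1' R01'}
    (f0 : L.N0 →+ L'.N0) (f1 : L.N1 →+ L'.N1) (f01 : L.N01 →+ L'.N01)
    (hf0 : ∀ (r : R0) (n : L.N0), f0 (r • n) = algebraMap R0 R0' r • f0 n)
    (hf1 : ∀ (r : R1) (n : L.N1), f1 (r • n) = algebraMap R1 R1' r • f1 n)
    (hf01 : ∀ (r : R01) (n : L.N01), f01 (r • n) = algebraMap R01 R01' r • f01 n)
    (hb0 : Function.Bijective (tensorLiftOfSemilinear f0 hf0))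
    (hb1 : Function.Bijective (tensorLiftOfSemilinear f1 hf1))
    (hb01 : Function.Bijective (tensorLiftOfSemilinear f01 hf01))
    (c0 : ∀ n, f01 (L.r0 n) = L'.r0 (f0 n)) (c1 : ∀ n, f01 (L.r1 n) = L'.r1 (f1 n)) :
    LiftData L L' where
  e0 := LinearEquiv.ofBijective (tensorLiftOfSemilinear f0 hf0) hb0
  e1 := LinearEquiv.ofBijective (tensorLiftOfSemilinear f1 hf1) hb1
  e01 := LinearEquiv.ofBijective (tensorLiftOfSemilinear f01 hf01) hb01
  comm0 x := by
    rw [LinearEquiv.ofBijective_apply, LinearEquiv.ofBijective_apply,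
      tensorLiftOfSemilinear_tmul, tensorLiftOfSemilinear_tmul, one_smul, one_smul, c0]
  comm1 x := by
    rw [LinearEquiv.ofBijective_apply, LinearEquiv.ofBijective_apply,
      tensorLiftOfSemilinear_tmul, tensorLiftOfSemilinear_tmul, one_smul, one_smul, c1]

variable {L : QC2 A R0 R1 R01} {L' : QC2 A' R0' R1' R01'} (h : LiftData L L')

/-- The semilinear map `L.N0 → L'.N0` underlying a base change datum. -/
noncomputable def LiftData.toAdd0 : L.N0 →+ L'.N0 where
  toFun n := h.e0 (1 ⊗ₜ[R0] n)
  map_zero' := by rw [TensorProduct.tmul_zero, map_zero]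
  map_add' x y := by rw [TensorProduct.tmul_add, map_add]

/-- The semilinear map `L.N1 → L'.N1` underlying a base change datum. -/
noncomputable def LiftData.toAdd1 : L.N1 →+ L'.N1 where
  toFun n := h.e1 (1 ⊗ₜ[R1] n)
  map_zero' := by rw [TensorProduct.tmul_zero, map_zero]
  map_add' x y := by rw [TensorProduct.tmul_add, map_add]

/-- The semilinear map `L.N01 → L'.N01` underlying a base change datum. -/
noncomputable def LiftData.toAdd01 : L.N01 →+ L'.N01 where
  toFun n := h.e01 (1 ⊗ₜ[R01] n)
  map_zero' := by rw [TensorProduct.tmul_zero, map_zero]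
  map_add' x y := by rw [TensorProduct.tmul_add, map_add]

@[simp] theorem LiftData.toAdd0_apply (n : L.N0) :
    LiftData.toAdd0 h n = h.e0 (1 ⊗ₜ[R0] n) := rfl
@[simp] theorem LiftData.toAdd1_apply (n : L.N1) :
    LiftData.toAdd1 h n = h.e1 (1 ⊗ₜ[R1] n) := rfl
@[simp] theorem LiftData.toAdd01_apply (n : L.N01) :
    LiftData.toAdd01 h n = h.e01 (1 ⊗ₜ[R01] n) := rfl

theorem one_tmul_smul {R R' N : Type u} [CommRing R] [CommRing R'] [Algebra R R']
    [AddCommGroup N] [Module R N] (r : R) (n : N) :
    (1 : R') ⊗ₜ[R] (r • n) = algebraMap R R' r • ((1 : R') ⊗ₜ[R] n) := by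
  rw [TensorProduct.smul_tmul', smul_eq_mul, mul_one, Algebra.algebraMap_eq_smul_one,
    TensorProduct.smul_tmul]

theorem LiftData.toAdd0_smul (r : R0) (n : L.N0) :
    LiftData.toAdd0 h (r • n) = algebraMap R0 R0' r • LiftData.toAdd0 h n := by
  rw [LiftData.toAdd0_apply, LiftData.toAdd0_apply, one_tmul_smul, map_smul]

theorem LiftData.toAdd1_smul (r : R1) (n : L.N1) :
    LiftData.toAdd1 h (r • n) = algebraMap R1 R1' r • LiftData.toAdd1 h n := by
  rw [LiftData.toAdd1_apply, LiftData.toAdd1_apply, one_tmul_smul, map_smul]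

theorem LiftData.toAdd01_smul (r : R01) (n : L.N01) :
    LiftData.toAdd01 h (r • n) = algebraMap R01 R01' r • LiftData.toAdd01 h n := by
  rw [LiftData.toAdd01_apply, LiftData.toAdd01_apply, one_tmul_smul, map_smul]

theorem LiftData.toAdd01_r0 (n : L.N0) :
    LiftData.toAdd01 h (L.r0 n) = L'.r0 (LiftData.toAdd0 h n) := h.comm0 n

theorem LiftData.toAdd01_r1 (n : L.N1) :
    LiftData.toAdd01 h (L.r1 n) = L'.r1 (LiftData.toAdd1 h n) := h.comm1 n

end Cube

section Bijective

variable {R R' N : Type u} [CommRing R] [CommRing R'] [Algebra R R'] [Algebra R' R]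
  [AddCommGroup N] [Module R N]
  (hl : ∀ x : R, algebraMap R' R (algebraMap R R' x) = x)
  (hr : ∀ y : R', algebraMap R R' (algebraMap R' R y) = y)

include hl hr in
/-- For a ring isomorphism `R → R'`, `n ↦ 1 ⊗ n` is a bijection `N → R' ⊗[R] N`. -/
theorem one_tmul_bijective : Function.Bijective (fun n : N => (1 : R') ⊗ₜ[R] n) := by
  letI : Module R' N := Module.compHom N (algebraMap R' R)
  have hsm : ∀ (r : R) (n : N), (AddMonoidHom.id N) (r • n) =
      algebraMap R' R (algebraMap R R' r) • (AddMonoidHom.id N) n := by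
    intro r n
    rw [hl]
    rfl
  -- the inverse: `r' ⊗ n ↦ (algebraMap R' R r') • n`
  let g : R' ⊗[R] N →+ N :=
    (TensorProduct.liftAddHom
      ({ toFun := fun r' =>
          { toFun := fun n => algebraMap R' R r' • n
            map_zero' := smul_zero _
            map_add' := smul_add _ }
         map_zero' := by ext n; simp
         map_add' := fun a b => by ext n; simp [add_smul] } : R' →+ N →+ N)
      (fun r r' n => by
        simp only [AddMonoidHom.coe_mk, ZeroHom.coe_mk]
        rw [Algebra.smul_def, map_mul, hl, mul_smul, smul_comm]))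
  have hg : ∀ (r' : R') (n : N), g (r' ⊗ₜ[R] n) = algebraMap R' R r' • n := fun _ _ => rfl
  constructor
  · intro n n' hnn'
    have := congrArg g hnn'
    simpa [hg] using this
  · intro x
    refine ⟨g x, ?_⟩
    induction x using TensorProduct.induction_on with
    | zero => simp
    | tmul r' n =>
      show (1 : R') ⊗ₜ[R] g (r' ⊗ₜ[R] n) = r' ⊗ₜ[R] n
      rw [hg, ← TensorProduct.smul_tmul, Algebra.smul_def, hr, mul_one]
    | add x y hx hy =>
      show (1 : R') ⊗ₜ[R] g (x + y) = x + y
      rw [map_add, TensorProduct.tmul_add]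
      exact congrArg₂ (· + ·) hx hy

end Bijective

section InvCube

variable {A R0 R1 R01 A' R0' R1' R01' : Type u}
  [CommRing A] [CommRing R0] [CommRing R1] [CommRing R01]
  [Algebra A R0] [Algebra A R1] [Algebra A R01] [Algebra R0 R01] [Algebra R1 R01]
  [IsScalarTower A R0 R01] [IsScalarTower A R1 R01]
  [CommRing A'] [CommRing R0'] [CommRing R1'] [CommRing R01']
  [Algebra A' R0'] [Algebra A' R1'] [Algebra A' R01'] [Algebra R0' R01'] [Algebra R1' R01']
  [IsScalarTower A' R0' R01'] [IsScalarTower A' R1' R01']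
  [Algebra R0 R0'] [Algebra R1 R1'] [Algebra R01 R01']
  [Algebra R0' R0] [Algebra R1' R1] [Algebra R01' R01]
  (I : InvCube R0 R1 R01 R0' R1' R01')
  {L : QC2 A R0 R1 R01} {L' : QC2 A' R0' R1' R01'} (h : LiftData L L')

include I in
theorem LiftData.toAdd0_bijective : Function.Bijective (LiftData.toAdd0 h) :=
  h.e0.bijective.comp (one_tmul_bijective I.left0 I.right0)

include I in
theorem LiftData.toAdd1_bijective : Function.Bijective (LiftData.toAdd1 h) :=
  h.e1.bijective.comp (one_tmul_bijective I.left1 I.right1)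

include I in
theorem LiftData.toAdd01_bijective : Function.Bijective (LiftData.toAdd01 h) :=
  h.e01.bijective.comp (one_tmul_bijective I.left01 I.right01)

/-- For a cube of ring isomorphisms, the semilinear additive equivalence `L.N0 ≃+ L'.N0`. -/
noncomputable def LiftData.addEquiv0 : L.N0 ≃+ L'.N0 :=
  AddEquiv.ofBijective (LiftData.toAdd0 h) (LiftData.toAdd0_bijective I h)

/-- For a cube of ring isomorphisms, the semilinear additive equivalence `L.N1 ≃+ L'.N1`. -/
noncomputable def LiftData.addEquiv1 : L.N1 ≃+ L'.N1 :=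
  AddEquiv.ofBijective (LiftData.toAdd1 h) (LiftData.toAdd1_bijective I h)

/-- For a cube of ring isomorphisms, the semilinear additive equivalence `L.N01 ≃+ L'.N01`. -/
noncomputable def LiftData.addEquiv01 : L.N01 ≃+ L'.N01 :=
  AddEquiv.ofBijective (LiftData.toAdd01 h) (LiftData.toAdd01_bijective I h)

theorem LiftData.addEquiv0_smul (r : R0) (n : L.N0) :
    LiftData.addEquiv0 I h (r • n) = algebraMap R0 R0' r • LiftData.addEquiv0 I h n :=
  LiftData.toAdd0_smul h r n

theorem LiftData.addEquiv1_smul (r : R1) (n : L.N1) :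
    LiftData.addEquiv1 I h (r • n) = algebraMap R1 R1' r • LiftData.addEquiv1 I h n :=
  LiftData.toAdd1_smul h r n

theorem LiftData.addEquiv01_smul (r : R01) (n : L.N01) :
    LiftData.addEquiv01 I h (r • n) = algebraMap R01 R01' r • LiftData.addEquiv01 I h n :=
  LiftData.toAdd01_smul h r n

end InvCube

section Square

variable {A T0 T1 T01 A' T0' T1' T01' S0 S1 S01 S0' S1' S01' : Type u}
  [CommRing A] [CommRing T0] [CommRing T1] [CommRing T01]
  [Algebra A T0] [Algebra A T1] [Algebra A T01] [Algebra T0 T01] [Algebra T1 T01]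
  [IsScalarTower A T0 T01] [IsScalarTower A T1 T01]
  [CommRing A'] [CommRing T0'] [CommRing T1'] [CommRing T01']
  [Algebra A' T0'] [Algebra A' T1'] [Algebra A' T01'] [Algebra T0' T01'] [Algebra T1' T01']
  [IsScalarTower A' T0' T01'] [IsScalarTower A' T1' T01']
  [CommRing S0] [CommRing S1] [CommRing S01]
  [Algebra A S0] [Algebra A S1] [Algebra A S01] [Algebra S0 S01] [Algebra S1 S01]
  [IsScalarTower A S0 S01] [IsScalarTower A S1 S01]
  [CommRing S0'] [CommRing S1'] [CommRing S01']
  [Algebra A' S0'] [Algebra A' S1'] [Algebra A' S01'] [Algebra S0' S01'] [Algebra S1' S01']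
  [IsScalarTower A' S0' S01'] [IsScalarTower A' S1' S01']
  -- the four cubes `T → S`, `S → S'`, `T → T'`, `T' → S'` and the diagonal `T → S'`
  [Algebra T0 S0] [Algebra T1 S1] [Algebra T01 S01]
  [Algebra S0 S0'] [Algebra S1 S1'] [Algebra S01 S01']
  [Algebra T0 T0'] [Algebra T1 T1'] [Algebra T01 T01']
  [Algebra T0' S0'] [Algebra T1' S1'] [Algebra T01' S01']
  [Algebra T0 S0'] [Algebra T1 S1'] [Algebra T01 S01']
  [IsScalarTower T0 S0 S0'] [IsScalarTower T1 S1 S1'] [IsScalarTower T01 S01 S01']
  [IsScalarTower T0 T0' S0'] [IsScalarTower T1 T1' S1'] [IsScalarTower T01 T01' S01']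
  (hc0 : (algebraMap S0' S01').comp (algebraMap T0' S0') =
    (algebraMap T01' S01').comp (algebraMap T0' T01'))
  (hc1 : (algebraMap S1' S01').comp (algebraMap T1' S1') =
    (algebraMap T01' S01').comp (algebraMap T1' T01'))

/-- **Square of base changes.**  If `G` is a base change of `L` along `T → S`, `G'` a base change
of `G` along `S → S'` and `L'` a base change of `L` along `T → T'`, then `G'` is a base change of
`L'` along `T' → S'` (`hc0`, `hc1`: the cube `T' → S'` commutes). -/
noncomputable def LiftData.ofSquare {L : QC2 A T0 T1 T01} {L' : QC2 A' T0' T1' T01'}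
    {G : QC2 A S0 S1 S01} {G' : QC2 A' S0' S1' S01'}
    (hLG : LiftData L G) (hGG' : LiftData G G') (hLL' : LiftData L L') : LiftData L' G' :=
  LiftData.ofIso (liftData_bcCube (A' := A') hc0 hc1 L')
    (LiftData.iso
      (LiftData.trans hLL' (liftData_bcCube (A' := A') hc0 hc1 L'))
      (LiftData.trans hLG hGG'))

end Square

end Fermat.Agent.Jac.BaseChange75
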