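import Mathlib
import Fermat.Agent.Jac.Core
import Fermat.Agent.Jac.JSmooth85Alg
import Fermat.Agent.Jac.LineOps39.Dual
import Fermat.Agent.Jac.JGroup85Pic
import Fermat.Agent.Jac.BaseChange75.Cube
import Fermat.Agent.Jac.BaseChange75.RingIso

/-!
# JAC brick BC, part 9: base change and duals of lines  (helper75)

* `LiftData.dualLine` : if `L'` is a base change of the line `L`, then `L'^∨` is a base change of
  `L^∨` (object level; proved by uniqueness of tensor inverses, using helper85's
  `JGroup85Pic.liftDataTensor` and helper39's `LineOps39.isoDualOfTensorIso`).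
* `bcCube_dual_iso` : `bcCube (L^∨) ≅ (bcCube L)^∨`.
-/

set_option autoImplicit false
set_option linter.style.haveILetI false
set_option linter.unusedSectionVars false

open TensorProduct

namespace Fermat.Agent.Jac.BaseChange75

universe u

open JSmooth85Alg LineOps39

section Dual

variable {A R0 R1 R01 A' R0' R1' R01' : Type u}
  [CommRing A] [CommRing R0] [CommRing R1] [CommRing R01]
  [Algebra A R0] [Algebra A R1] [Algebra A R01] [Algebra R0 R01] [Algebra R1 R01]
  [IsScalarTower A R0 R01] [IsScalarTower A R1 R01]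
  [CommRing A'] [CommRing R0'] [CommRing R1'] [CommRing R01']
  [Algebra A' R0'] [Algebra A' R1'] [Algebra A' R01'] [Algebra R0' R01'] [Algebra R1' R01']
  [IsScalarTower A' R0' R01'] [IsScalarTower A' R1' R01']
  [Algebra R0 R0'] [Algebra R1 R1'] [Algebra R01 R01']
  (hc0 : (algebraMap R0' R01').comp (algebraMap R0 R0') =
    (algebraMap R01 R01').comp (algebraMap R0 R01))
  (hc1 : (algebraMap R1' R01').comp (algebraMap R1 R1') =
    (algebraMap R01 R01').comp (algebraMap R1 R01))
  (c : TwoChart A R0 R1 R01) (c' : TwoChart A' R0' R1' R01')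

/-- The base change of the dual of a line `L` is a tensor inverse of any base change of `L`. -/
noncomputable def tensorBcCubeDualIso {L : QC2 A R0 R1 R01} {L' : QC2 A' R0' R1' R01'}
    (h : LiftData L L') (hL : L.IsLine) (hV : L.IsVB) :
    QC2.Iso (tensor L' (bcCube A' hc0 hc1 (dual c L hV))) (QC2.unit : QC2 A' R0' R1' R01') :=
  LiftData.iso
    (LiftData.congrIso
      (JGroup85Pic.liftDataTensor h (liftData_bcCube (A' := A') hc0 hc1 (dual c L hV)))
      (tensorDualIso c L hL))
    (LiftData.unit hc0 hc1)

/-- Duals of lines are compatible with base change. -/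
noncomputable def LiftData.dualLine {L : QC2 A R0 R1 R01} {L' : QC2 A' R0' R1' R01'}
    (h : LiftData L L') (hL : L.IsLine) (hL' : L'.IsLine) (hV : L.IsVB) (hV' : L'.IsVB) :
    LiftData (dual c L hV) (dual c' L' hV') :=
  LiftData.ofIso (liftData_bcCube (A' := A') hc0 hc1 (dual c L hV))
    (isoDualOfTensorIso c' hL' (tensorBcCubeDualIso hc0 hc1 c h hL hV))

/-- The base change of the dual is the dual of the base change. -/
noncomputable def bcCube_dual_iso (L : QC2 A R0 R1 R01) (hL : L.IsLine) (hV : L.IsVB)
    (hV' : (bcCube A' hc0 hc1 L).IsVB) :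
    QC2.Iso (bcCube A' hc0 hc1 (dual c L hV)) (dual c' (bcCube A' hc0 hc1 L) hV') :=
  LiftData.iso (liftData_bcCube (A' := A') hc0 hc1 (dual c L hV))
    (LiftData.dualLine hc0 hc1 c c' (liftData_bcCube (A' := A') hc0 hc1 L) hL
      (LiftData.isLine (liftData_bcCube (A' := A') hc0 hc1 L) hL) hV hV')

end Dual

end Fermat.Agent.Jac.BaseChange75
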