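import Mathlib
import Fermat.Agent.Jac.Core
import Fermat.Agent.Jac.JSmooth85Alg
import Fermat.Agent.Jac.BaseChange75.Rings
import Fermat.Agent.Jac.BaseChange75.Cube
import Fermat.Agent.Jac.BaseChange75.Complex
import Fermat.Agent.Jac.BaseChange75.Tensor

/-!
# JAC brick BC, part 5: finiteness and projectivity over the line under base change  (helper75)

* `aevalBaseChangeEquiv` : if `E : A' ⊗[A] M ≃ₗ[A'] M'` intertwines the actions of `t : R` on `M`
  and `t' : R'` on `M'`, then `M'` (with `X` acting as `t'`) is the base change of `M` (with `X`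
  acting as `t`) along `A[X] → A'[X]`.
* `LiftData.finiteOverLine`, `LiftData.projOverLine` : `FiniteOverLine`, `ProjOverLine` are
  preserved by base change (abstract cube form); `baseChange_finiteOverLine`,
  `baseChange_projOverLine` : tensor-ring form.
-/

set_option autoImplicit false
set_option linter.style.haveILetI false
set_option linter.unusedSectionVars false

open TensorProduct Polynomial

namespace Fermat.Agent.Jac.BaseChange75

universe u

attribute [local instance] Polynomial.algebra

section AEval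

variable {A A' R R' M M' : Type u} [CommRing A] [CommRing A'] [Algebra A A']
  [CommRing R] [Algebra A R] [CommRing R'] [Algebra A' R']
  [AddCommGroup M] [Module A M] [Module R M] [IsScalarTower A R M]
  [AddCommGroup M'] [Module A' M'] [Module R' M'] [IsScalarTower A' R' M']
  (t : R) (t' : R') (E : A' ⊗[A] M ≃ₗ[A'] M')
  (hE : ∀ m : M, E (1 ⊗ₜ[A] (t • m)) = t' • E (1 ⊗ₜ[A] m))

/-- The `A'`-linear identification `M' ≃ A'[X] ⊗[A[X]] M`. -/
noncomputable def aevalBaseChangeAux :
    M' ≃ₗ[A'] A'[X] ⊗[A[X]] Module.AEval A M t :=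
  E.symm ≪≫ₗ
    (TensorProduct.AlgebraTensorModule.congr (LinearEquiv.refl A' A') (Module.AEval.of A M t)) ≪≫ₗ
    (Algebra.IsPushout.cancelBaseChange A A' A[X] A'[X] (Module.AEval A M t)).symm

theorem aevalBaseChangeAux_apply (m : M) :
    aevalBaseChangeAux t E (E (1 ⊗ₜ[A] m)) = (1 : A'[X]) ⊗ₜ[A[X]] Module.AEval.of A M t m := by
  simp [aevalBaseChangeAux, Algebra.IsPushout.cancelBaseChange_symm_tmul]

include hE in
theorem aevalBaseChangeAux_smul (m' : M') :
    aevalBaseChangeAux t E (t' • m') = (X : A'[X]) • aevalBaseChangeAux t E m' := by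
  obtain ⟨x, rfl⟩ := E.surjective m'
  -- both sides are `A'`-linear in `x`
  let F1 : A' ⊗[A] M →ₗ[A'] A'[X] ⊗[A[X]] Module.AEval A M t :=
    (aevalBaseChangeAux t E).toLinearMap ∘ₗ
      ({ toFun := fun y => t' • y
         map_add' := smul_add t'
         map_smul' := fun a y => smul_comm t' a y } : M' →ₗ[A'] M') ∘ₗ E.toLinearMap
  let F2 : A' ⊗[A] M →ₗ[A'] A'[X] ⊗[A[X]] Module.AEval A M t :=
    ({ toFun := fun y => (X : A'[X]) • y
       map_add' := smul_add _
       map_smul' := fun a y => smul_comm _ a y } :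
        A'[X] ⊗[A[X]] Module.AEval A M t →ₗ[A'] A'[X] ⊗[A[X]] Module.AEval A M t) ∘ₗ
      (aevalBaseChangeAux t E).toLinearMap ∘ₗ E.toLinearMap
  have key : F1 = F2 := by
    apply ext_one_tmul
    intro m
    show aevalBaseChangeAux t E (t' • E (1 ⊗ₜ[A] m)) =
      (X : A'[X]) • aevalBaseChangeAux t E (E (1 ⊗ₜ[A] m))
    rw [← hE, aevalBaseChangeAux_apply, aevalBaseChangeAux_apply]
    have h1 : Module.AEval.of A M t (t • m) = (X : A[X]) • Module.AEval.of A M t m := by
      rw [Module.AEval.X_smul_of]
    rw [h1, ← TensorProduct.smul_tmul, TensorProduct.smul_tmul', Algebra.smul_def,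
      Polynomial.algebraMap_def, Polynomial.coe_mapRingHom, Polynomial.map_X, mul_one,
      smul_eq_mul, mul_one]
  exact LinearMap.congr_fun key x

/-- `M'` with `X` acting through `t'` is the base change of `M` (with `X` acting through `t`)
along `A[X] → A'[X]`. -/
noncomputable def aevalBaseChangeEquiv :
    Module.AEval A' M' t' ≃ₗ[A'[X]] A'[X] ⊗[A[X]] Module.AEval A M t :=
  LinearEquiv.ofAEval t' (aevalBaseChangeAux t E) (aevalBaseChangeAux_smul t t' E hE)

include hE in
theorem finite_aeval_of_equiv (h : Module.Finite A[X] (Module.AEval A M t)) :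
    Module.Finite A'[X] (Module.AEval A' M' t') :=
  Module.Finite.equiv (aevalBaseChangeEquiv t t' E hE).symm

include hE in
theorem projective_aeval_of_equiv (h : Module.Projective A[X] (Module.AEval A M t)) :
    Module.Projective A'[X] (Module.AEval A' M' t') :=
  Module.Projective.of_equiv (aevalBaseChangeEquiv t t' E hE).symm

end AEval

open JSmooth85Alg

section Cube

variable {A R0 R1 R01 A' R0' R1' R01' : Type u}
  [CommRing A] [CommRing R0] [CommRing R1] [CommRing R01]
  [Algebra A R0] [Algebra A R1] [Algebra A R01] [Algebra R0 R01] [Algebra R1 R01]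
  [IsScalarTower A R0 R01] [IsScalarTower A R1 R01]
  [CommRing A'] [CommRing R0'] [CommRing R1'] [CommRing R01']
  [Algebra A' R0'] [Algebra A' R1'] [Algebra A' R01'] [Algebra R0' R01'] [Algebra R1' R01']
  [IsScalarTower A' R0' R01'] [IsScalarTower A' R1' R01']
  [Algebra R0 R0'] [Algebra R1 R1'] [Algebra R01 R01']
  [Algebra A A']
  [Algebra A R0'] [IsScalarTower A A' R0'] [IsScalarTower A R0 R0'] [Algebra.IsPushout A A' R0 R0']
  [Algebra A R1'] [IsScalarTower A A' R1'] [IsScalarTower A R1 R1'] [Algebra.IsPushout A A' R1 R1']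
  [Algebra A R01'] [IsScalarTower A A' R01'] [IsScalarTower A R01 R01']
  [Algebra.IsPushout A A' R01 R01']

variable {L : QC2 A R0 R1 R01} {L' : QC2 A' R0' R1' R01'} (h : LiftData L L')

theorem LiftData.e0A_smul (t : R0) (n : L.N0) :
    LiftData.e0A h (1 ⊗ₜ[A] (t • n)) = algebraMap R0 R0' t • LiftData.e0A h (1 ⊗ₜ[A] n) := by
  rw [LiftData.e0A_one_tmul, LiftData.e0A_one_tmul, ← map_smul]
  congr 1
  rw [TensorProduct.smul_tmul', smul_eq_mul, mul_one, Algebra.algebraMap_eq_smul_one,
    TensorProduct.smul_tmul]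

theorem LiftData.e1A_smul (t : R1) (n : L.N1) :
    LiftData.e1A h (1 ⊗ₜ[A] (t • n)) = algebraMap R1 R1' t • LiftData.e1A h (1 ⊗ₜ[A] n) := by
  rw [LiftData.e1A_one_tmul, LiftData.e1A_one_tmul, ← map_smul]
  congr 1
  rw [TensorProduct.smul_tmul', smul_eq_mul, mul_one, Algebra.algebraMap_eq_smul_one,
    TensorProduct.smul_tmul]

variable {c : TwoChart A R0 R1 R01} {c' : TwoChart A' R0' R1' R01'}
  (ht : algebraMap R0 R0' c.t = c'.t) (hs : algebraMap R1 R1' c.s = c'.s)

include h ht hs in
/-- Finiteness over the line is preserved by base change. -/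
theorem LiftData.finiteOverLine (hL : L.FiniteOverLine c) : L'.FiniteOverLine c' :=
  ⟨finite_aeval_of_equiv c.t c'.t (LiftData.e0A h)
      (fun m => by rw [LiftData.e0A_smul, ht]) hL.fin0,
    finite_aeval_of_equiv c.s c'.s (LiftData.e1A h)
      (fun m => by rw [LiftData.e1A_smul, hs]) hL.fin1⟩

include h ht hs in
/-- Projectivity over the line is preserved by base change. -/
theorem LiftData.projOverLine (hL : L.ProjOverLine c) : L'.ProjOverLine c' :=
  ⟨projective_aeval_of_equiv c.t c'.t (LiftData.e0A h)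
      (fun m => by rw [LiftData.e0A_smul, ht]) hL.proj0,
    projective_aeval_of_equiv c.s c'.s (LiftData.e1A h)
      (fun m => by rw [LiftData.e1A_smul, hs]) hL.proj1⟩

end Cube

section Tensor

open scoped Fermat.Agent.Jac.BaseChange75

variable {k B0 B1 B01 : Type u} [CommRing k] [CommRing B0] [CommRing B1] [CommRing B01]
  [Algebra k B0] [Algebra k B1] [Algebra k B01] [Algebra B0 B01] [Algebra B1 B01]
  [IsScalarTower k B0 B01] [IsScalarTower k B1 B01]
  (c0 : TwoChart k B0 B1 B01)
  {A : Type u} [CommRing A] [Algebra k A]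
  (A' : Type u) [CommRing A'] [Algebra k A'] [Algebra A A'] [IsScalarTower k A A']
  {L : QC2 A (A ⊗[k] B0) (A ⊗[k] B1) (A ⊗[k] B01)}
  {L' : QC2 A' (A' ⊗[k] B0) (A' ⊗[k] B1) (A' ⊗[k] B01)}

/-- Finiteness over the line passes to any base change (tensor-ring form). -/
theorem LiftData.finiteOverLine_tensor (h : LiftData L L')
    (hL : L.FiniteOverLine (c0.baseChange A)) : L'.FiniteOverLine (c0.baseChange A') :=
  LiftData.finiteOverLine h (algebraMap_baseChange_t c0 A A') (algebraMap_baseChange_s c0 A A') hL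

/-- Projectivity over the line passes to any base change (tensor-ring form). -/
theorem LiftData.projOverLine_tensor (h : LiftData L L')
    (hL : L.ProjOverLine (c0.baseChange A)) : L'.ProjOverLine (c0.baseChange A') :=
  LiftData.projOverLine h (algebraMap_baseChange_t c0 A A') (algebraMap_baseChange_s c0 A A') hL

theorem baseChange_finiteOverLine (hL : L.FiniteOverLine (c0.baseChange A)) :
    (L.baseChange A').FiniteOverLine (c0.baseChange A') :=
  LiftData.finiteOverLine_tensor c0 A' (baseChange_liftData A' L) hL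

theorem baseChange_projOverLine (hL : L.ProjOverLine (c0.baseChange A)) :
    (L.baseChange A').ProjOverLine (c0.baseChange A') :=
  LiftData.projOverLine_tensor c0 A' (baseChange_liftData A' L) hL

end Tensor

end Fermat.Agent.Jac.BaseChange75
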